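/-
P-SS2 row 894 (SS2-A3 TORIC): the abstract core (Mathlib only).

`R'` a domain integrally closed in its field `F'`, `F / F'` a finite extension, `R` a ring
between `R'` and `F`, integral over `R'`; `𝔪` the only maximal ideal of `R` above the maximal
ideal `𝔪'` of `R'`.  If `z ∈ R_𝔪` and `κ ^ n = N_{F/F'}(z)`, then `κ ∈ R'_{𝔪'}`, so `κ` has ONE
value at `𝔪'`: two constants which are congruent to `κ` modulo two valuations through `𝔪'` are
congruent modulo `𝔪'`; roots of unity of order prime to the residue characteristic are then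
equal.
-/
import Mathlib

set_option autoImplicit false

noncomputable section

namespace Fermat.Agent.H68.SS2

section descent

variable {R' R : Type} [CommRing R'] [CommRing R] [Algebra R' R] [Algebra.IsIntegral R' R]

/-- **Unit descent**: if `𝔪` is the only maximal ideal of `R` above `𝔪'` and `b ∉ 𝔪`, then `b`
divides the image of some `t ∉ 𝔪'`. -/
theorem exists_dvd_of_onlyAbove (𝔪' : Ideal R') [h𝔪' : 𝔪'.IsMaximal] (𝔪 : Ideal R)
    (honly : ∀ 𝔫 : Ideal R, 𝔫.IsMaximal → 𝔪'.map (algebraMap R' R) ≤ 𝔫 → 𝔫 = 𝔪)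
    (b : R) (hb : b ∉ 𝔪) : ∃ (t : R') (b' : R), t ∉ 𝔪' ∧ b * b' = algebraMap R' R t := by
  by_contra hcon
  push Not at hcon
  have hle : (Ideal.span {b}).comap (algebraMap R' R) ≤ 𝔪' := by
    intro t ht
    by_contra htm
    rw [Ideal.mem_comap, Ideal.mem_span_singleton'] at ht
    obtain ⟨b', hb'⟩ := ht
    exact hcon t b' htm (by rw [mul_comm]; exact hb')
  obtain ⟨Q, hQ, hQp, hQc⟩ := Ideal.exists_ideal_over_prime_of_isIntegral 𝔪' (Ideal.span {b}) hle
  have hQmax : Q.IsMaximal :=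
    Ideal.isMaximal_of_isIntegral_of_isMaximal_comap (R := R') Q (by rw [hQc]; exact h𝔪')
  have hQ𝔪 : Q = 𝔪 := honly Q hQmax (by
    rw [Ideal.map_le_iff_le_comap, hQc])
  apply hb
  rw [← hQ𝔪]
  exact hQ (Ideal.mem_span_singleton_self b)

end descent

section core

variable {F' F R' R : Type} [Field F'] [Field F] [CommRing R'] [CommRing R]
  [Algebra R' F'] [Algebra R F] [Algebra F' F] [Algebra R' R] [Algebra R' F]
  [IsScalarTower R' R F] [IsScalarTower R' F' F] [Algebra.IsIntegral R' R]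

/-- the norm of an element of `R` lies in `R'` -/
theorem norm_mem_of_closed
    (hclosed : ∀ z : F', IsIntegral R' z → ∃ r : R', algebraMap R' F' r = z) (r : R) :
    ∃ s : R', algebraMap R' F' s = Algebra.norm F' (algebraMap R F r) := by
  apply hclosed
  apply Algebra.isIntegral_norm
  exact (Algebra.IsIntegral.isIntegral (R := R') r).map (IsScalarTower.toAlgHom R' R F)

/-- **`κ` is regular at `𝔪'`**: if `z ∈ R_𝔪` and `p κ ^ n = N(z)` with a unit `p` of `R'`, then
`τ κ ∈ R'` for some `τ ∉ 𝔪'`. -/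
theorem exists_mul_mem_of_pow_eq_norm
    (hclosed : ∀ z : F', IsIntegral R' z → ∃ r : R', algebraMap R' F' r = z)
    (𝔪' : Ideal R') [h𝔪' : 𝔪'.IsMaximal] (𝔪 : Ideal R)
    (honly : ∀ 𝔫 : Ideal R, 𝔫.IsMaximal → 𝔪'.map (algebraMap R' R) ≤ 𝔫 → 𝔫 = 𝔪)
    (n : ℕ) (hn : 0 < n) (z : F)
    (hz : ∃ b : R, b ∉ 𝔪 ∧ ∃ r : R, algebraMap R F r = algebraMap R F b * z)
    (κ : F') (p : R') (hp : IsUnit p) (hκ : algebraMap R' F' p * κ ^ n = Algebra.norm F' z) :
    ∃ (τ s : R'), τ ∉ 𝔪' ∧ algebraMap R' F' s = algebraMap R' F' τ * κ := by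
  obtain ⟨b, hb, r, hr⟩ := hz
  obtain ⟨t, b', ht, hbb'⟩ := exists_dvd_of_onlyAbove 𝔪' 𝔪 honly b hb
  obtain ⟨p', hp'⟩ := hp.exists_left_inv
  -- `t z = b' (b z) ∈ R`
  have h1 : algebraMap R F (b' * r) = algebraMap F' F (algebraMap R' F' t) * z := by
    rw [map_mul, hr, ← mul_assoc, ← map_mul, mul_comm b' b, hbb',
      ← IsScalarTower.algebraMap_apply R' R F, IsScalarTower.algebraMap_apply R' F' F]
  obtain ⟨s₀, hs₀⟩ := norm_mem_of_closed (F := F) hclosed (b' * r)
  rw [h1, map_mul, Algebra.norm_algebraMap, ← hκ] at hs₀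
  set d := Module.finrank F' F with hd
  have hpp : algebraMap R' F' p' * algebraMap R' F' p = 1 := by
    rw [← map_mul, hp', map_one]
  -- `(t ^ d κ) ^ n = p' t ^ (d (n - 1)) s₀ ∈ R'`
  have h2 : (algebraMap R' F' (t ^ d) * κ) ^ n
      = algebraMap R' F' (p' * (t ^ (d * (n - 1)) * s₀)) := by
    rw [map_mul, map_mul, hs₀, mul_pow, map_pow, map_pow]
    obtain ⟨k, rfl⟩ : ∃ k, n = k + 1 := ⟨n - 1, by omega⟩
    have e1 : d * (k + 1 - 1) = d * k := by simp
    rw [e1]
    have e2 : (algebraMap R' F' t ^ d) ^ (k + 1)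
        = algebraMap R' F' t ^ (d * k) * algebraMap R' F' t ^ d := by
      rw [← pow_mul, ← pow_add]; congr 1
    rw [e2]
    calc algebraMap R' F' t ^ (d * k) * algebraMap R' F' t ^ d * κ ^ (k + 1)
        = (algebraMap R' F' p' * algebraMap R' F' p)
            * (algebraMap R' F' t ^ (d * k) * algebraMap R' F' t ^ d * κ ^ (k + 1)) := by
          rw [hpp, one_mul]
      _ = _ := by ring
  have h3 : IsIntegral R' (algebraMap R' F' (t ^ d) * κ) := by
    refine IsIntegral.of_pow hn ?_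
    rw [h2]
    exact isIntegral_algebraMap
  obtain ⟨s, hs⟩ := hclosed _ h3
  exact ⟨t ^ d, s, fun h => ht (h𝔪'.isPrime.mem_of_pow_mem d h), hs⟩

/-- **One value at the closed point.** -/
theorem sub_mem_of_through
    (𝔪' : Ideal R') [h𝔪' : 𝔪'.IsMaximal]
    (Va' Vb' : ValuationSubring F')
    (hVa : ∀ r : R', algebraMap R' F' r ∈ Va')
    (hVa' : ∀ r : R', algebraMap R' F' r ∈ Va'.nonunits → r ∈ 𝔪')
    (hVb : ∀ r : R', algebraMap R' F' r ∈ Vb')
    (hVb' : ∀ r : R', algebraMap R' F' r ∈ Vb'.nonunits → r ∈ 𝔪')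
    (κ : F') (τ s : R') (hτ : τ ∉ 𝔪') (hs : algebraMap R' F' s = algebraMap R' F' τ * κ)
    (ca cb : R') (ha : κ - algebraMap R' F' ca ∈ Va'.nonunits)
    (hb : κ - algebraMap R' F' cb ∈ Vb'.nonunits) : ca - cb ∈ 𝔪' := by
  have key : ∀ (V : ValuationSubring F') (hV : ∀ r : R', algebraMap R' F' r ∈ V)
      (hV' : ∀ r : R', algebraMap R' F' r ∈ V.nonunits → r ∈ 𝔪') (c : R'),
      κ - algebraMap R' F' c ∈ V.nonunits → s - τ * c ∈ 𝔪' := by
    intro V hV hV' c hc
    apply hV'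
    have : algebraMap R' F' (s - τ * c) = algebraMap R' F' τ * (κ - algebraMap R' F' c) := by
      rw [map_sub, map_mul, hs]; ring
    rw [this]
    have h1 := (V.valuation_le_one_iff _).mpr (hV τ)
    have h2 := V.mem_nonunits_iff.mp hc
    rw [V.mem_nonunits_iff, map_mul]
    calc V.valuation (algebraMap R' F' τ) * V.valuation (κ - algebraMap R' F' c)
        ≤ 1 * V.valuation (κ - algebraMap R' F' c) := mul_le_mul_left h1 _
      _ = V.valuation (κ - algebraMap R' F' c) := one_mul _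
      _ < 1 := h2
  have h1 := key Va' hVa hVa' ca ha
  have h2 := key Vb' hVb hVb' cb hb
  have h3 : τ * (ca - cb) ∈ 𝔪' := by
    have : τ * (ca - cb) = (s - τ * cb) - (s - τ * ca) := by ring
    rw [this]
    exact 𝔪'.sub_mem h2 h1
  exact (h𝔪'.isPrime.mem_or_mem h3).resolve_left hτ

end core

section roots

/-- Roots of unity of order `n` (a unit) which are congruent modulo a proper ideal are equal. -/
theorem eq_of_pow_eq_one_of_sub_mem {A k : Type} [CommRing A] [IsDomain A] [CommRing k]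
    [Nontrivial k] (ψ : A →+* k) (n : ℕ) (hn : IsUnit ((n : ℕ) : A)) (ζ₁ ζ₂ : A)
    (h₁ : ζ₁ ^ n = 1) (h₂ : ζ₂ ^ n = 1) (h : ψ ζ₁ = ψ ζ₂) : ζ₁ = ζ₂ := by
  -- `ζ₁ ^ n - ζ₂ ^ n = (ζ₁ - ζ₂) * ∑ ζ₁ ^ i ζ₂ ^ (n - 1 - i)`
  have hfac := (Commute.all ζ₁ ζ₂).mul_geom_sum₂ n
  rw [h₁, h₂, sub_self] at hfac
  rcases mul_eq_zero.mp hfac with h0 | h0
  · exact sub_eq_zero.mp h0
  · exfalso
    have h3 := congrArg ψ h0
    rw [map_sum, map_zero] at h3
    have h4 : ∀ i ∈ Finset.range n, ψ (ζ₁ ^ i * ζ₂ ^ (n - 1 - i)) = ψ ζ₂ ^ (n - 1) := by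
      intro i hi
      rw [map_mul, map_pow, map_pow, h, ← pow_add]
      congr 1
      have := Finset.mem_range.mp hi
      omega
    rw [Finset.sum_congr rfl h4, Finset.sum_const, Finset.card_range, nsmul_eq_mul] at h3
    have hu1 : IsUnit (ψ ((n : ℕ) : A)) := hn.map ψ
    rw [map_natCast] at hu1
    have hu2 : IsUnit (ψ ζ₂ ^ (n - 1)) := by
      have hn0 : n ≠ 0 := by
        rintro rfl
        simp at hu1
      have : IsUnit (ψ ζ₂) := by
        have hz : IsUnit ζ₂ := by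
          apply IsUnit.of_pow_eq_one h₂ hn0
        exact hz.map ψ
      exact this.pow _
    have := hu1.mul hu2
    rw [h3] at this
    exact not_isUnit_zero this

end roots

end Fermat.Agent.H68.SS2

end
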