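/-
P-SS2 row 894 (SS2-A3 TORIC, owner helper68): interfaces.  Nothing is proved here.

Chart language of `Fermat.Agent.H22.KL` / `Fermat.Agent.H45` / `Fermat.Agent.H11.SS2`.
Two levels `E₀' ⊆ E₀` (`[Algebra E₀' E₀]`, in the application `α` or `β`),
`B' = chartClosure A E₀' y`, `B = chartClosure A E₀ x` with `x = algebraMap E₀' E₀ y`.

* `NormRedConstAt A E₀' E₀ V' W e` : **norm reduction for constants** at the valuation `V'` of
  `E₀'` with branches `W i` (valuation subrings of `E₀`, `i : ι`) and exponents `e i`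
  (`e i = e(W i) f(W i)`): if `x ≡ c i` modulo the non-units of `W i` for all `i`, `c i ∈ A`,
  then `N_{E₀/E₀'}(x) ≡ ∏ c i ^ e i` modulo the non-units of `V'`.
* `OnlyAbove A E₀' E₀ y 𝔪' x 𝔪` : `𝔪` is the only maximal ideal of `B(x)` above `𝔪'`.
* `ToricStatement` : the norm argument (S4 of findings #471), for any finite number of
  branches above the two branches `Va'`, `Vb'` through `𝔪'`.
-/
import Fermat.Agent.H11.SS2.Defs

set_option autoImplicit false

noncomputable section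

namespace Fermat.Agent.H68.SS2

open Fermat.Agent.H22.KL

section defs

variable (A : Type) [CommRing A] (E₀' E₀ : Type) [Field E₀'] [Field E₀] [Algebra A E₀']
  [Algebra A E₀] [Algebra E₀' E₀]

/-- **Norm reduction for constants** at `V'` with branches `W` and exponents `e`. -/
def NormRedConstAt {ι : Type} [Fintype ι] (V' : ValuationSubring E₀')
    (W : ι → ValuationSubring E₀) (e : ι → ℕ) : Prop :=
  ∀ (x : E₀) (c : ι → A),
    (∀ i, x - algebraMap A E₀ (c i) ∈ (W i).nonunits) →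
    Algebra.norm E₀' x - algebraMap A E₀' (∏ i, c i ^ e i) ∈ V'.nonunits

/-- `𝔪` is the only maximal ideal of `B(x)` above the ideal `𝔪'` of `B'(y)`. -/
def OnlyAbove (y : E₀') (𝔪' : Ideal (chartClosure A E₀' y)) (x : E₀)
    (𝔪 : Ideal (chartClosure A E₀ x)) : Prop :=
  ∀ 𝔫 : Ideal (chartClosure A E₀ x), 𝔫.IsMaximal →
    (∀ s : chartClosure A E₀' y, s ∈ 𝔪' →
      ∀ t : chartClosure A E₀ x, (t : E₀) = algebraMap E₀' E₀ s → t ∈ 𝔫) →
    𝔫 = 𝔪

end defs

/-- **TORIC** (S4 of findings #471): the two constants obtained by norm reduction along the two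
branches `Va'`, `Vb'` through `𝔪'` agree.

`Hinv` is a local principalisation of `u` at `𝔪` (`u Hinv ^ n ∈ B_𝔪`) with constant values
`ca i` on the branches `Wa i` above `Va'` and `cb i` on the branches `Wb i` above `Vb'`;
`N(u) = p h ^ n` with a unit constant `p`, and `h ≡ wa` on `Va'`, `h ≡ wb` on `Vb'`.  Then
`wa ∏ (ca i) ^ (ea i) = wb ∏ (cb i) ^ (eb i)`. -/
def ToricStatement : Prop :=
  ∀ (A : Type) [CommRing A] [IsDomain A]
    (E₀' E₀ : Type) [Field E₀'] [Field E₀] [Algebra A E₀'] [Algebra A E₀] [Algebra E₀' E₀]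
    [IsScalarTower A E₀' E₀] [FiniteDimensional E₀' E₀]
    (y : E₀') (x : E₀), algebraMap E₀' E₀ y = x →
    ∀ (𝔪' : Ideal (chartClosure A E₀' y)), 𝔪'.IsMaximal →
    ∀ (𝔪 : Ideal (chartClosure A E₀ x)), OnlyAbove A E₀' E₀ y 𝔪' x 𝔪 →
    ∀ (n : ℕ), 0 < n → IsUnit ((n : ℕ) : A) →
    ∀ (Va' Vb' : ValuationSubring E₀'),
      (∀ s ∈ chartClosure A E₀' y, s ∈ Va') → (∀ s ∈ chartClosure A E₀' y, s ∈ Vb') →
      Fermat.Agent.H11.SS2.Through A E₀' y 𝔪' Va' →
      Fermat.Agent.H11.SS2.Through A E₀' y 𝔪' Vb' →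
    ∀ (ιa ιb : Type) [Fintype ιa] [Fintype ιb]
      (Wa : ιa → ValuationSubring E₀) (ea : ιa → ℕ)
      (Wb : ιb → ValuationSubring E₀) (eb : ιb → ℕ),
      NormRedConstAt A E₀' E₀ Va' Wa ea → NormRedConstAt A E₀' E₀ Vb' Wb eb →
    ∀ (Hinv u : E₀) (ca : ιa → A) (cb : ιb → A),
      (∀ i, ca i ^ n = 1 ∧ Hinv - algebraMap A E₀ (ca i) ∈ (Wa i).nonunits) →
      (∀ i, cb i ^ n = 1 ∧ Hinv - algebraMap A E₀ (cb i) ∈ (Wb i).nonunits) →
      Fermat.Agent.H11.SS2.InLoc A E₀ x 𝔪 (u * Hinv ^ n) →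
    ∀ (h : E₀') (p wa wb : A), IsUnit p →
      algebraMap A E₀' p * h ^ n = Algebra.norm E₀' u → wa ^ n = 1 → wb ^ n = 1 →
      h - algebraMap A E₀' wa ∈ Va'.nonunits → h - algebraMap A E₀' wb ∈ Vb'.nonunits →
      wa * ∏ i, ca i ^ ea i = wb * ∏ i, cb i ^ eb i

end Fermat.Agent.H68.SS2

end
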