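/-
P-SS2 row 894 (SS2-A3 TORIC, owner helper68): proof of `ToricStatement`.

`κ := h N(Hinv)` satisfies `p κ ^ n = N(u Hinv ^ n)`; since `𝔪` is the only point above `𝔪'`
and `B'` is integrally closed, `κ ∈ B'_{𝔪'}` (`ToricCore`), so `κ` has one value at `𝔪'`; norm
reduction computes this value along the two branches.
-/
import Fermat.Agent.H68.SS2.ToricInterfaces
import Fermat.Agent.H68.SS2.ToricCore
import Fermat.Agent.H87.KL.KumIdem

set_option autoImplicit false
set_option linter.style.haveILetI false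
set_option linter.unusedSectionVars false

noncomputable section

namespace Fermat.Agent.H68.SS2

open Fermat.Agent.H22.KL Fermat.Agent.H87.KL Polynomial

section chart

variable {A : Type} [CommRing A] [IsDomain A]
  {E₀' E₀ : Type} [Field E₀'] [Field E₀] [Algebra A E₀'] [Algebra A E₀] [Algebra E₀' E₀]
  [IsScalarTower A E₀' E₀]

/-- `B'(y) → B(y)`. -/
def toricMap (y : E₀') :
    chartClosure A E₀' y →+* chartClosure A E₀ (algebraMap E₀' E₀ y) :=
  ((algebraMap E₀' E₀).comp (chartClosure A E₀' y).val.toRingHom).codRestrict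
    (chartClosure A E₀ (algebraMap E₀' E₀ y))
    (fun s => (mem_chartClosure_iff _ _).2 (((mem_chartClosure_iff y _).1 s.2).map_tower))

theorem toricMap_coe (y : E₀') (s : chartClosure A E₀' y) :
    ((toricMap (E₀ := E₀) y s : chartClosure A E₀ (algebraMap E₀' E₀ y)) : E₀)
      = algebraMap E₀' E₀ (s : E₀') := rfl

/-- `A[X] → B'(y)`. -/
def toricEv (y : E₀') : A[X] →+* chartClosure A E₀' y :=
  (evX (A := A) y).codRestrict (chartClosure A E₀' y)
    (fun H => (mem_chartClosure_iff _ _).2 (IntX.map y H))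

theorem toricEv_coe (y : E₀') (H : A[X]) :
    ((toricEv y H : chartClosure A E₀' y) : E₀') = evX (A := A) y H := rfl

/-- `B(y)` is integral over `B'(y)`. -/
theorem toric_isIntegral (y : E₀') (z : chartClosure A E₀ (algebraMap E₀' E₀ y)) :
    (toricMap (E₀ := E₀) y).IsIntegralElem z := by
  obtain ⟨P, hP, hPz⟩ := (mem_chartClosure_iff _ _).1 z.2
  refine ⟨P.map (toricEv y), hP.map _, ?_⟩
  apply Subtype.ext
  have h1 : ((Polynomial.eval₂ (toricMap (E₀ := E₀) y) z (P.map (toricEv y)) :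
      chartClosure A E₀ (algebraMap E₀' E₀ y)) : E₀)
      = Polynomial.eval₂ (evX (A := A) (algebraMap E₀' E₀ y)) (z : E₀) P := by
    rw [Polynomial.eval₂_map]
    have := Polynomial.hom_eval₂ P ((toricMap (E₀ := E₀) y).comp (toricEv y))
      (chartClosure A E₀ (algebraMap E₀' E₀ y)).val.toRingHom z
    refine this.trans ?_
    congr 1
    rw [evX_algebraMap]
    rfl
  rw [h1, hPz]
  rfl

/-- `B'(y)` is integrally closed in `E₀'`. -/
theorem toric_closed (y : E₀') (z : E₀')
    (hz : ((chartClosure A E₀' y).val.toRingHom).IsIntegralElem z) :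
    z ∈ chartClosure A E₀' y := by
  rw [mem_chartClosure_iff]
  letI a1 : Algebra A[X] E₀' := (evX (A := A) y).toAlgebra
  letI a2 : Algebra A[X] (chartClosure A E₀' y) := (toricEv y).toAlgebra
  haveI : IsScalarTower A[X] (chartClosure A E₀' y) E₀' :=
    IsScalarTower.of_algebraMap_eq (fun H => rfl)
  haveI : Algebra.IsIntegral A[X] (chartClosure A E₀' y) := by
    refine ⟨fun r => ?_⟩
    have hr : IsIntegral A[X] ((r : E₀')) := (mem_chartClosure_iff _ _).1 r.2
    exact (isIntegral_algebraMap_iff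
      (show Function.Injective (algebraMap (chartClosure A E₀' y) E₀') from
        Subtype.val_injective)).1 hr
  have hz' : IsIntegral (chartClosure A E₀' y) z := hz
  exact isIntegral_trans (R := A[X]) z hz'

end chart

section val

variable {F : Type} [Field F]

theorem toric_nonunits_mul_mem (V : ValuationSubring F) {a b : F} (ha : a ∈ V.nonunits)
    (hb : b ∈ V) : a * b ∈ V.nonunits := by
  have h1 := (V.valuation_le_one_iff _).mpr hb
  have h2 := V.mem_nonunits_iff.mp ha
  rw [V.mem_nonunits_iff, map_mul, mul_comm]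
  calc V.valuation b * V.valuation a ≤ 1 * V.valuation a := mul_le_mul_left h1 _
    _ = V.valuation a := one_mul _
    _ < 1 := h2

theorem toric_nonunits_add_mem (V : ValuationSubring F) {a b : F} (ha : a ∈ V.nonunits)
    (hb : b ∈ V.nonunits) : a + b ∈ V.nonunits := by
  rw [V.mem_nonunits_iff] at ha hb ⊢
  exact Valuation.map_add_lt _ ha hb

theorem toric_mem_of_nonunits (V : ValuationSubring F) {a : F} (ha : a ∈ V.nonunits) :
    a ∈ V := by
  rw [V.mem_nonunits_iff] at ha
  exact (V.valuation_le_one_iff _).mp ha.le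

end val

/-- **TORIC** (row 894, SS2-A3). -/
theorem toric : ToricStatement := by
  intro A _ _ E₀' E₀ _ _ _ _ _ _ _ y x hx 𝔪' h𝔪' 𝔪 honly n hn hnu Va' Vb' hVa hVb hTa hTb
    ιa ιb _ _ Wa ea Wb eb hNa hNb Hinv u ca cb hca hcb hloc h p wa wb hp hh hwa hwb hha hhb
  subst hx
  letI algBB : Algebra (chartClosure A E₀' y) (chartClosure A E₀ (algebraMap E₀' E₀ y)) :=
    (toricMap y).toAlgebra
  haveI t1 : IsScalarTower (chartClosure A E₀' y) (chartClosure A E₀ (algebraMap E₀' E₀ y)) E₀ :=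
    IsScalarTower.of_algebraMap_eq (fun s => rfl)
  haveI t2 : IsScalarTower (chartClosure A E₀' y) E₀' E₀ :=
    IsScalarTower.of_algebraMap_eq (fun s => rfl)
  haveI int : Algebra.IsIntegral (chartClosure A E₀' y)
      (chartClosure A E₀ (algebraMap E₀' E₀ y)) := ⟨fun z => toric_isIntegral y z⟩
  have hclosed : ∀ z : E₀', IsIntegral (chartClosure A E₀' y) z →
      ∃ r : chartClosure A E₀' y, algebraMap (chartClosure A E₀' y) E₀' r = z :=
    fun z hz => ⟨⟨z, toric_closed y z hz⟩, rfl⟩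
  have honly' : ∀ 𝔫 : Ideal (chartClosure A E₀ (algebraMap E₀' E₀ y)), 𝔫.IsMaximal →
      𝔪'.map (algebraMap (chartClosure A E₀' y) (chartClosure A E₀ (algebraMap E₀' E₀ y))) ≤ 𝔫 →
      𝔫 = 𝔪 := by
    intro 𝔫 h𝔫 hle
    apply honly 𝔫 h𝔫
    intro s hs t ht
    have : t = algebraMap (chartClosure A E₀' y) (chartClosure A E₀ (algebraMap E₀' E₀ y)) s :=
      Subtype.ext ht
    rw [this]
    exact hle (Ideal.mem_map_of_mem _ hs)
  -- the function `κ`
  have hκ : algebraMap (chartClosure A E₀' y) E₀' (algebraMap A (chartClosure A E₀' y) p)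
      * (h * Algebra.norm E₀' Hinv) ^ n = Algebra.norm E₀' (u * Hinv ^ n) := by
    have e1 : algebraMap (chartClosure A E₀' y) E₀' (algebraMap A (chartClosure A E₀' y) p)
        = algebraMap A E₀' p := rfl
    rw [e1, mul_pow, ← mul_assoc, hh, map_mul, map_pow]
  have hz : ∃ b : chartClosure A E₀ (algebraMap E₀' E₀ y), b ∉ 𝔪 ∧
      ∃ r : chartClosure A E₀ (algebraMap E₀' E₀ y),
        algebraMap (chartClosure A E₀ (algebraMap E₀' E₀ y)) E₀ r
          = algebraMap (chartClosure A E₀ (algebraMap E₀' E₀ y)) E₀ b * (u * Hinv ^ n) := by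
    obtain ⟨b, hb, hbz⟩ := hloc
    exact ⟨b, hb, ⟨_, hbz⟩, rfl⟩
  obtain ⟨τ, s, hτ, hs⟩ := exists_mul_mem_of_pow_eq_norm (F := E₀) hclosed 𝔪' 𝔪 honly' n hn
    (u * Hinv ^ n) hz (h * Algebra.norm E₀' Hinv) (algebraMap A (chartClosure A E₀' y) p)
    (hp.map _) hκ
  -- the two values
  have key : ∀ (V' : ValuationSubring E₀') (hV : ∀ s ∈ chartClosure A E₀' y, s ∈ V')
      (ι : Type) [Fintype ι] (W : ι → ValuationSubring E₀) (e : ι → ℕ)
      (hN : NormRedConstAt A E₀' E₀ V' W e) (c : ι → A)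
      (hc : ∀ i, c i ^ n = 1 ∧ Hinv - algebraMap A E₀ (c i) ∈ (W i).nonunits) (w : A)
      (hw : h - algebraMap A E₀' w ∈ V'.nonunits),
      h * Algebra.norm E₀' Hinv - algebraMap (chartClosure A E₀' y) E₀'
        (algebraMap A (chartClosure A E₀' y) (w * ∏ i, c i ^ e i)) ∈ V'.nonunits := by
    intro V' hV ι _ W e hN c hc w hw
    have h1 := hN Hinv c (fun i => (hc i).2)
    have hA : ∀ a : A, algebraMap A E₀' a ∈ V' := fun a =>
      hV _ (Subalgebra.algebraMap_mem _ a)
    have h2 : Algebra.norm E₀' Hinv ∈ V' := by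
      have := V'.add_mem _ _ (toric_mem_of_nonunits V' h1) (hA (∏ i, c i ^ e i))
      simpa using this
    have e1 : algebraMap (chartClosure A E₀' y) E₀'
        (algebraMap A (chartClosure A E₀' y) (w * ∏ i, c i ^ e i))
        = algebraMap A E₀' w * algebraMap A E₀' (∏ i, c i ^ e i) := by
      rw [← map_mul]; rfl
    have e2 : h * Algebra.norm E₀' Hinv
        - algebraMap A E₀' w * algebraMap A E₀' (∏ i, c i ^ e i)
        = (h - algebraMap A E₀' w) * Algebra.norm E₀' Hinv
          + (Algebra.norm E₀' Hinv - algebraMap A E₀' (∏ i, c i ^ e i)) * algebraMap A E₀' w := by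
      ring
    rw [e1, e2]
    exact toric_nonunits_add_mem V' (toric_nonunits_mul_mem V' hw h2)
      (toric_nonunits_mul_mem V' h1 (hA w))
  have hsub := sub_mem_of_through 𝔪' Va' Vb' (fun r => hVa _ r.2) hTa (fun r => hVb _ r.2) hTb
    (h * Algebra.norm E₀' Hinv) τ s hτ hs
    (algebraMap A (chartClosure A E₀' y) (wa * ∏ i, ca i ^ ea i))
    (algebraMap A (chartClosure A E₀' y) (wb * ∏ i, cb i ^ eb i))
    (key Va' hVa ιa Wa ea hNa ca hca wa hha) (key Vb' hVb ιb Wb eb hNb cb hcb wb hhb)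
  -- roots of unity
  have hpow : ∀ (ι : Type) [Fintype ι] (e : ι → ℕ) (c : ι → A) (hc : ∀ i, c i ^ n = 1) (w : A)
      (hw : w ^ n = 1), (w * ∏ i, c i ^ e i) ^ n = 1 := by
    intro ι _ e c hc w hw
    rw [mul_pow, hw, one_mul, ← Finset.prod_pow]
    refine Finset.prod_eq_one (fun i _ => ?_)
    rw [← pow_mul, mul_comm, pow_mul, hc i, one_pow]
  haveI : Nontrivial (chartClosure A E₀' y ⧸ 𝔪') := Ideal.Quotient.nontrivial_iff.mpr h𝔪'.ne_top
  refine eq_of_pow_eq_one_of_sub_mem
    ((Ideal.Quotient.mk 𝔪').comp (algebraMap A (chartClosure A E₀' y))) n hnu _ _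
    (hpow ιa ea ca (fun i => (hca i).1) wa hwa) (hpow ιb eb cb (fun i => (hcb i).1) wb hwb) ?_
  rw [RingHom.comp_apply, RingHom.comp_apply, Ideal.Quotient.eq]
  exact hsub

end Fermat.Agent.H68.SS2

end
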