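/-
P-SS2 (helper68): **norm reduction for constants**, valuation-subring form.

Setting of helper83's `Fermat.Agent.H83.SS2.exhaust`: `L / K` finite separable, `O` a discrete
valuation subring of `K` with uniformiser `π`, `W i` (`i : Fin r`) valuation subrings of `L`
above `O` with elementwise lower bounds `e i`, `f i` for ramification and residue degree and
`[L : K] ≤ ∑ e i f i`.  If `x ≡ c i` modulo the non-units of `W i` for all `i` (`c i ∈ O`), then
`N_{L/K}(x) ≡ ∏ (c i) ^ (e i f i)` modulo the non-units of `O`.
-/
import Fermat.Agent.H68.SS2.NormRedCore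
import Fermat.Agent.H83.SS2.Exhaust

set_option autoImplicit false
set_option linter.style.haveILetI false
set_option linter.unusedSectionVars false

noncomputable section

namespace Fermat.Agent.H68.SS2

open Fermat.Agent.H83.SS2 IsDedekindDomain

attribute [local instance] isDedekindDomain_closure isFractionRing_closure finite_closure

section val

variable {K L : Type*} [Field K] [Field L] [Algebra K L] [FiniteDimensional K L]
  [Algebra.IsSeparable K L] {O : ValuationSubring K} [IsPrincipalIdealRing O]
  {π : K} (hπ0 : π ≠ 0) (hπ : π ∈ O.nonunits) (hπu : ∀ y ∈ O.nonunits, y / π ∈ O)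

/-- the norm of an element of the integral closure, computed over `O` -/
theorem norm_closure_eq (s : integralClosure O L) :
    Algebra.norm K (s : L) = algebraMap O K (Algebra.norm O s) := by
  haveI hfree : Module.Free O (integralClosure O L) :=
    IsIntegralClosure.module_free O K L (integralClosure O L)
  haveI : IsLocalization (Algebra.algebraMapSubmonoid (integralClosure O L)
      (nonZeroDivisors O)) L :=
    IsIntegralClosure.isLocalization O K L (integralClosure O L)
  exact Algebra.norm_localization (R := O) (Rₘ := K) (S := integralClosure O L) (Sₘ := L)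
    (nonZeroDivisors O) s

include hπ0 hπ hπu in
/-- **Norm reduction for constants**, valuation-subring form. -/
theorem normRed_val {r : ℕ} (W : Fin r → ValuationSubring L) (e f : Fin r → ℕ)
    (hW : Function.Injective W) (hWO : ∀ i, (W i).comap (algebraMap K L) = O)
    (t : Fin r → L) (ht : ∀ i, t i ∈ (W i).nonunits) (ht0 : ∀ i, t i ≠ 0)
    (hu : ∀ i, algebraMap K L π / t i ^ e i ∈ W i)
    (b : ∀ i, Fin (f i) → L) (hb : ∀ i j, b i j ∈ W i)
    (hind : ∀ i (c : Fin (f i) → K), (∀ j, c j ∈ O) →
      (∑ j, algebraMap K L (c j) * b i j) ∈ (W i).nonunits → ∀ j, c j ∈ O.nonunits)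
    (hsum : Module.finrank K L ≤ ∑ i, e i * f i)
    (x : L) (c : Fin r → K) (hcO : ∀ i, c i ∈ O)
    (hc : ∀ i, x - algebraMap K L (c i) ∈ (W i).nonunits) :
    Algebra.norm K x - ∏ i, c i ^ (e i * f i) ∈ O.nonunits := by
  have he : ∀ i, e i ≤ (center O (W i) (hWO i)).ramificationIdx O := fun i =>
    le_ramificationIdx_center hπ0 hπ hπu (hWO i) (ht i) (ht0 i) (hu i)
  have hf : ∀ i, f i ≤ (center O (W i) (hWO i)).inertiaDeg O := fun i =>
    le_inertiaDeg_center hπ0 hπ (hWO i) (b i) (hb i) (hind i)
  obtain ⟨hall, hexact⟩ := count_main hπ0 hπ W e f hW hWO he hf hsum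
  obtain ⟨-, hint, -, -⟩ := exhaust hπ0 hπ hπu W e f hW hWO t ht ht0 hu b hb hind hsum
  -- `x` lies in all `W i`, hence in `B`
  have hcW : ∀ i, algebraMap K L (c i) ∈ W i := fun i =>
    (algebraMap_mem_iff_of_comap (hWO i) (c i)).2 (hcO i)
  have hxW : ∀ i, x ∈ W i := by
    intro i
    have := (W i).add_mem _ _ (mem_of_mem_nonunits (W i) (hc i)) (hcW i)
    simpa using this
  have hx : IsIntegral O x := hint x hxW
  set s : integralClosure O L := ⟨x, hx⟩ with hs
  haveI hfree : Module.Free O (integralClosure O L) :=
    IsIntegralClosure.module_free O K L (integralClosure O L)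
  have key := normRed_dedekind (R := O) (S := integralClosure O L)
    (map_maximalIdeal_ne_bot (L := L) hπ0 hπ hπu)
    (fun i => center O (W i) (hWO i))
    (fun i j hij => hW (eq_of_center_eq (hWO i) (hWO j) hπ0 hπ hij))
    (fun i => center_isPrime (hWO i)) (fun i => center_liesOver (hWO i)) hall s
    (fun i => (⟨c i, hcO i⟩ : O)) (by
      intro i
      rw [mem_center_iff]
      exact hc i)
  rw [← ValuationSubring.coe_mem_nonunits_iff] at key
  have h1 : Algebra.norm K x = algebraMap O K (Algebra.norm O s) := norm_closure_eq s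
  have h2 : ((Algebra.norm O s - ∏ i, (⟨c i, hcO i⟩ : O) ^
      ((center O (W i) (hWO i)).ramificationIdx O * (center O (W i) (hWO i)).inertiaDeg O) : O)
        : K) = Algebra.norm K x - ∏ i, c i ^ (e i * f i) := by
    rw [h1]
    push_cast
    congr 1
    refine Finset.prod_congr rfl (fun i _ => ?_)
    rw [(hexact i).1, (hexact i).2]
  rw [← h2]
  exact key

end val

end Fermat.Agent.H68.SS2

end
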