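/-
P-SS2 (helper68): `NormRedConstAt` (the norm-reduction hypothesis of `ToricStatement`) from the
data of helper83's `Fermat.Agent.H83.SS2.exhaust`.
-/
import Fermat.Agent.H68.SS2.ToricInterfaces
import Fermat.Agent.H68.SS2.NormRedVal

set_option autoImplicit false
set_option linter.style.haveILetI false

noncomputable section

namespace Fermat.Agent.H68.SS2

/-- **Norm reduction for constants** in the form consumed by `ToricStatement`: `V'` a discrete
valuation subring of `E₀'` containing the constants `A`, with uniformiser `π`; `W i` valuation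
subrings of `E₀` above `V'` with lower bounds `e i`, `f i` (elementwise, as in helper83's
`exhaust`) and `[E₀ : E₀'] ≤ ∑ e i f i`.  Then `NormRedConstAt A E₀' E₀ V' W (e f)`. -/
theorem normRedConstAt_of_exhaust (A : Type) [CommRing A] (E₀' E₀ : Type) [Field E₀'] [Field E₀]
    [Algebra A E₀'] [Algebra A E₀] [Algebra E₀' E₀] [IsScalarTower A E₀' E₀]
    [FiniteDimensional E₀' E₀] [Algebra.IsSeparable E₀' E₀]
    (V' : ValuationSubring E₀') [IsPrincipalIdealRing V']
    (hA : ∀ a : A, algebraMap A E₀' a ∈ V')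
    {π : E₀'} (hπ0 : π ≠ 0) (hπ : π ∈ V'.nonunits) (hπu : ∀ y ∈ V'.nonunits, y / π ∈ V')
    {r : ℕ} (W : Fin r → ValuationSubring E₀) (e f : Fin r → ℕ)
    (hW : Function.Injective W) (hWO : ∀ i, (W i).comap (algebraMap E₀' E₀) = V')
    (t : Fin r → E₀) (ht : ∀ i, t i ∈ (W i).nonunits) (ht0 : ∀ i, t i ≠ 0)
    (hu : ∀ i, algebraMap E₀' E₀ π / t i ^ e i ∈ W i)
    (b : ∀ i, Fin (f i) → E₀) (hb : ∀ i j, b i j ∈ W i)
    (hind : ∀ i (c : Fin (f i) → E₀'), (∀ j, c j ∈ V') →
      (∑ j, algebraMap E₀' E₀ (c j) * b i j) ∈ (W i).nonunits → ∀ j, c j ∈ V'.nonunits)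
    (hsum : Module.finrank E₀' E₀ ≤ ∑ i, e i * f i) :
    NormRedConstAt A E₀' E₀ V' W (fun i => e i * f i) := by
  intro x c hc
  have key := normRed_val hπ0 hπ hπu W e f hW hWO t ht ht0 hu b hb hind hsum x
    (fun i => algebraMap A E₀' (c i)) (fun i => hA _) (by
      intro i
      rw [← IsScalarTower.algebraMap_apply A E₀' E₀]
      exact hc i)
  have h : algebraMap A E₀' (∏ i, c i ^ (e i * f i))
      = ∏ i, algebraMap A E₀' (c i) ^ (e i * f i) := by
    rw [map_prod]
    exact Finset.prod_congr rfl (fun i _ => map_pow _ _ _)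
  rw [h]
  exact key

end Fermat.Agent.H68.SS2

end
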