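/-
P-SS2 (helper68): the four instances of `NormRedConstAt` on the keystone interface
`Fermat.Agent.H11.SS2.Val3Data` (norm reduction for constants along `α` and along `β`).

  along `α` :  above `O₁` : `{V₂₀, V₁₁}` with exponents `(1, q - 1)`;  above `O₂` : `{V₀₂}`, `q`;
  along `β` :  above `O₁` : `{V₂₀}` with exponent `q`;  above `O₂` : `{V₁₁, V₀₂}`, `(q - 1, 1)`.
-/
import Fermat.Agent.H68.SS2.NormRed
import Fermat.Agent.H11.SS2.Val3Defs

set_option autoImplicit false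
set_option linter.style.haveILetI false
set_option linter.unusedSectionVars false

noncomputable section

namespace Fermat.Agent.H68.SS2

open Fermat.Agent.H11.SS2

section general

variable (A : Type) [CommRing A] {F E : Type} [Field F] [Field E] [CharZero F]
  [Algebra A F] [Algebra A E]

/-- **Two branches of residue degree one** (ramification indices `e₁`, `e₂`). -/
theorem normRedConstAt_split (φ : F →+* E) (hφA : ∀ a, φ (algebraMap A F a) = algebraMap A E a)
    (hfd : @FiniteDimensional F E _ _ (@Algebra.toModule F E _ _ φ.toAlgebra))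
    (O : ValuationSubring F) (hO : IsPrincipalIdealRing O) (hA : ∀ a, algebraMap A F a ∈ O)
    (π : F) (hπ : DKUnif O π) (W₁ W₂ : ValuationSubring E) (hne : W₁ ≠ W₂)
    (h₁ : W₁.comap φ = O) (h₂ : W₂.comap φ = O) (e₁ e₂ : ℕ)
    (hsum : @Module.finrank F E _ _ (@Algebra.toModule F E _ _ φ.toAlgebra) ≤ e₁ + e₂)
    (t₁ t₂ : E) (ht₁ : t₁ ∈ W₁.nonunits) (ht₁0 : t₁ ≠ 0) (hu₁ : φ π / t₁ ^ e₁ ∈ W₁)
    (ht₂ : t₂ ∈ W₂.nonunits) (ht₂0 : t₂ ≠ 0) (hu₂ : φ π / t₂ ^ e₂ ∈ W₂) :
    @NormRedConstAt A _ F E _ _ _ _ φ.toAlgebra (Fin 2) _ O ![W₁, W₂] ![e₁, e₂] := by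
  letI : Algebra F E := φ.toAlgebra
  haveI : IsScalarTower A F E := IsScalarTower.of_algebraMap_eq (fun a => (hφA a).symm)
  haveI := hfd
  haveI := hO
  have key := normRedConstAt_of_exhaust A F E O hA hπ.1 hπ.2.1 hπ.2.2 ![W₁, W₂] ![e₁, e₂]
    (fun _ => 1)
    (by
      intro i j hij
      fin_cases i <;> fin_cases j <;> simp_all)
    (by
      intro i
      fin_cases i
      · exact h₁
      · exact h₂)
    ![t₁, t₂]
    (by intro i; fin_cases i; exacts [ht₁, ht₂])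
    (by intro i; fin_cases i; exacts [ht₁0, ht₂0])
    (by intro i; fin_cases i; exacts [hu₁, hu₂])
    (fun _ _ => 1)
    (by intro i j; exact ValuationSubring.one_mem _)
    (by
      intro i c hc hsumc j
      have hj : j = 0 := Subsingleton.elim _ _
      subst hj
      have h3 : algebraMap F E (c 0) ∈ (![W₁, W₂] i).nonunits := by
        simpa using hsumc
      have hcomap : (![W₁, W₂] i).comap (algebraMap F E) = O := by
        fin_cases i
        · exact h₁
        · exact h₂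
      exact (Fermat.Agent.H83.SS2.algebraMap_mem_nonunits_iff_of_comap hcomap (c 0)).1 h3)
    (by
      simpa [Fin.sum_univ_two] using hsum)
  have hfun : (fun i : Fin 2 => ![e₁, e₂] i * (fun _ => 1) i) = ![e₁, e₂] := by
    funext i
    simp
  rw [hfun] at key
  exact key

/-- **One branch with residue degree `q`** (residues of `1, z, …, z^(q-1)` independent). -/
theorem normRedConstAt_insep (φ : F →+* E) (hφA : ∀ a, φ (algebraMap A F a) = algebraMap A E a)
    (hfd : @FiniteDimensional F E _ _ (@Algebra.toModule F E _ _ φ.toAlgebra))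
    (O : ValuationSubring F) (hO : IsPrincipalIdealRing O) (hA : ∀ a, algebraMap A F a ∈ O)
    (π : F) (hπ : DKUnif O π) (W : ValuationSubring E) (h₁ : W.comap φ = O) (q : ℕ)
    (hsum : @Module.finrank F E _ _ (@Algebra.toModule F E _ _ φ.toAlgebra) ≤ q)
    (t : E) (ht : t ∈ W.nonunits) (ht0 : t ≠ 0) (hu : φ π / t ∈ W)
    (z : E) (hz : z ∈ W)
    (hind : ∀ c : Fin q → F, (∀ j, c j ∈ O) → (∑ j, φ (c j) * z ^ (j : ℕ)) ∈ W.nonunits →
      ∀ j, c j ∈ O.nonunits) :
    @NormRedConstAt A _ F E _ _ _ _ φ.toAlgebra (Fin 1) _ O ![W] ![q] := by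
  letI : Algebra F E := φ.toAlgebra
  haveI : IsScalarTower A F E := IsScalarTower.of_algebraMap_eq (fun a => (hφA a).symm)
  haveI := hfd
  haveI := hO
  have key := normRedConstAt_of_exhaust A F E O hA hπ.1 hπ.2.1 hπ.2.2 ![W] ![1]
    (fun _ => q)
    (by intro i j _; exact Subsingleton.elim _ _)
    (by intro i; fin_cases i; exact h₁)
    ![t]
    (by intro i; fin_cases i; exact ht)
    (by intro i; fin_cases i; exact ht0)
    (by
      intro i
      fin_cases i
      change φ π / t ^ 1 ∈ W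
      rw [pow_one]
      exact hu)
    (fun _ j => z ^ (j : ℕ))
    (by intro i j; fin_cases i; exact pow_mem hz _)
    (by
      intro i c hc hsumc
      fin_cases i
      exact hind c hc hsumc)
    (by simpa using hsum)
  have hfun : (fun i : Fin 1 => ![1] i * (fun _ => q) i) = ![q] := by
    funext i
    simp
  rw [hfun] at key
  exact key

end general

section val3

variable (A : Type) [CommRing A] {F E : Type} [Field F] [Field E] [CharZero F]
  [Algebra A F] [Algebra A E]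

/-- **The four norm reductions for constants on `Val3Data`.** -/
theorem normRedConstAt_val3 (α β : F →+* E)
    (hαA : ∀ a, α (algebraMap A F a) = algebraMap A E a)
    (hβA : ∀ a, β (algebraMap A F a) = algebraMap A E a)
    (O₁ O₂ : ValuationSubring F) (hO₁ : IsPrincipalIdealRing O₁) (hO₂ : IsPrincipalIdealRing O₂)
    (hA₁ : ∀ a, algebraMap A F a ∈ O₁) (hA₂ : ∀ a, algebraMap A F a ∈ O₂)
    (V₂₀ V₁₁ V₀₂ : ValuationSubring E) (q : ℕ) (hq : 0 < q) (Y₁ : F) (Z : E)
    (hu₁ : DKUnif O₁ (q : F)) (hu₂ : DKUnif O₂ (q : F))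
    (hdα : @FiniteDimensional F E _ _ (@Algebra.toModule F E _ _ α.toAlgebra) ∧
      @Module.finrank F E _ _ (@Algebra.toModule F E _ _ α.toAlgebra) = q)
    (hdβ : @FiniteDimensional F E _ _ (@Algebra.toModule F E _ _ β.toAlgebra) ∧
      @Module.finrank F E _ _ (@Algebra.toModule F E _ _ β.toAlgebra) = q)
    (h : Val3Data α β O₁ O₂ V₂₀ V₁₁ V₀₂ q Y₁ Z) :
    @NormRedConstAt A _ F E _ _ _ _ α.toAlgebra (Fin 2) _ O₁ ![V₂₀, V₁₁] ![1, q - 1] ∧
    @NormRedConstAt A _ F E _ _ _ _ α.toAlgebra (Fin 1) _ O₂ ![V₀₂] ![q] ∧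
    @NormRedConstAt A _ F E _ _ _ _ β.toAlgebra (Fin 1) _ O₁ ![V₂₀] ![q] ∧
    @NormRedConstAt A _ F E _ _ _ _ β.toAlgebra (Fin 2) _ O₂ ![V₁₁, V₀₂] ![q - 1, 1] := by
  have hqE : (q : E) ≠ 0 := h.unif₂₀.1
  have hq1 : q ≤ 1 + (q - 1) := by omega
  have hq2 : q ≤ (q - 1) + 1 := by omega
  have hαq : α (q : F) = (q : E) := map_natCast α q
  have hβq : β (q : F) = (q : E) := map_natCast β q
  have hone : ∀ W : ValuationSubring E, (q : E) / (q : E) ^ 1 ∈ W := by
    intro W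
    rw [pow_one, div_self hqE]
    exact W.one_mem
  have hone' : ∀ W : ValuationSubring E, (q : E) / (q : E) ∈ W := by
    intro W
    rw [div_self hqE]
    exact W.one_mem
  refine ⟨?_, ?_, ?_, ?_⟩
  · exact normRedConstAt_split A α hαA hdα.1 O₁ hO₁ hA₁ (q : F) hu₁ V₂₀ V₁₁ h.ne₁
      h.comap₂₀α h.comap₁₁α 1 (q - 1) (by rw [hdα.2]; exact hq1) (q : E) Z
      h.unif₂₀.2.1 hqE (by rw [hαq]; exact hone _) h.unif₁₁.2.1 h.unif₁₁.1
      (by rw [hαq]; exact h.ram₁₁.1)
  · exact normRedConstAt_insep A α hαA hdα.1 O₂ hO₂ hA₂ (q : F) hu₂ V₀₂ h.comap₀₂α q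
      (by rw [hdα.2]) (q : E) h.unif₀₂.2.1 hqE (by rw [hαq]; exact hone' _) Z h.Z₀₂.1
      h.insep₀₂α.2.2
  · exact normRedConstAt_insep A β hβA hdβ.1 O₁ hO₁ hA₁ (q : F) hu₁ V₂₀ h.comap₂₀β q
      (by rw [hdβ.2]) (q : E) h.unif₂₀.2.1 hqE (by rw [hβq]; exact hone' _) Z h.Z₂₀.1
      h.insep₂₀β.2.2
  · exact normRedConstAt_split A β hβA hdβ.1 O₂ hO₂ hA₂ (q : F) hu₂ V₁₁ V₀₂ h.ne₃
      h.comap₁₁β h.comap₀₂β (q - 1) 1 (by rw [hdβ.2]; exact hq2) Z (q : E)
      h.unif₁₁.2.1 h.unif₁₁.1 (by rw [hβq]; exact h.ram₁₁.1) h.unif₀₂.2.1 hqE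
      (by rw [hβq]; exact hone _)

end val3

end Fermat.Agent.H68.SS2

end
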