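/-
P-SS2 row 991 (SS2-A7 NORMRED, second seat helper68): **valuation of a norm**, Mathlib-only core.

`R` a local Dedekind domain (a discrete valuation ring) with perfect fraction field, `S` a
Dedekind domain, finite and free over `R`, `P i` (`i : ι`) the height one primes of `S`.  Then
for `s ≠ 0` in `S`:   `(N_{S/R} s) = 𝔪 ^ (∑ i, f_i · ord_{P i}(s))`.
-/
import Mathlib

set_option autoImplicit false
set_option linter.style.haveILetI false
set_option linter.unusedSectionVars false
set_option linter.overlappingInstances false
set_option linter.unusedVariables false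

noncomputable section

namespace Fermat.Agent.H68.SS2

open IsDedekindDomain IsLocalRing

section core

variable {R S : Type*} [CommRing R] [IsDomain R] [IsDedekindDomain R] [IsLocalRing R]
  [CommRing S] [IsDomain S] [IsDedekindDomain S] [Algebra R S] [Module.Finite R S]
  [Module.Free R S] [Module.IsTorsionFree R S] [PerfectField (FractionRing R)]

/-- every height one prime of `S` lies over the maximal ideal of the local ring `R` -/
theorem liesOver_maximalIdeal_of_heightOne (v : HeightOneSpectrum S) :
    v.asIdeal.LiesOver (maximalIdeal R) := by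
  haveI : Algebra.IsIntegral R S := Algebra.IsIntegral.of_finite R S
  have hne : v.asIdeal.under R ≠ ⊥ := by
    rw [Ideal.under_def]
    exact Ideal.IsIntegral.comap_ne_bot R v.ne_bot
  haveI : v.asIdeal.IsPrime := v.isPrime
  have hprime : (v.asIdeal.under R).IsPrime := inferInstance
  have hmax : (v.asIdeal.under R).IsMaximal := hprime.isMaximal hne
  exact ⟨(IsLocalRing.eq_maximalIdeal hmax).symm⟩

/-- **Valuation of a norm**, ideal form: `(N s) = 𝔪 ^ (∑ f_i ord_{P i}(s))`. -/
theorem span_norm_eq_pow_sum {ι : Type*} [Fintype ι]
    (P : ι → HeightOneSpectrum S) (hP : Function.Bijective P) (s : S) (hs : s ≠ 0) :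
    Ideal.span {Algebra.norm R s} = (maximalIdeal R) ^
      (∑ i, (P i).asIdeal.inertiaDeg R *
        (Associates.mk (P i).asIdeal).count (Associates.mk (Ideal.span {s})).factors) := by
  classical
  have hI : Ideal.span {s} ≠ 0 := by
    rw [Ne, Ideal.zero_eq_bot, Ideal.span_singleton_eq_bot]
    exact hs
  have h1 : Ideal.relNorm R (Ideal.span {s}) = Ideal.span {Algebra.norm R s} := by
    rw [Ideal.relNorm_singleton, Algebra.intNorm_eq_norm]
  have h2 := Ideal.finprod_heightOneSpectrum_factorization hI
  rw [← finprod_comp P hP, finprod_eq_prod_of_fintype] at h2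
  have h3 : Ideal.relNorm R (Ideal.span {s})
      = ∏ i, Ideal.relNorm R ((P i).maxPowDividing (Ideal.span {s})) := by
    conv_lhs => rw [← h2]
    exact map_prod _ _ _
  rw [← h1, h3, ← Finset.prod_pow_eq_pow_sum]
  refine Finset.prod_congr rfl (fun i _ => ?_)
  haveI := liesOver_maximalIdeal_of_heightOne (R := R) (P i)
  haveI : (P i).asIdeal.IsMaximal := (P i).isMaximal
  rw [HeightOneSpectrum.maxPowDividing, map_pow,
    Ideal.relNorm_eq_pow_of_isMaximal (P i).asIdeal (maximalIdeal R), ← pow_mul]

end core

end Fermat.Agent.H68.SS2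

end
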