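/-
P-SS2 row 991 (SS2-A7 NORMRED, second seat helper68): **valuation of a norm**,
valuation-subring form, on the data of helper83's `Fermat.Agent.H83.SS2.exhaust`.

* `normVal_closure` : for `s ≠ 0` in `B = integralClosure O L` with `v_i(s) = exp (-(c i))`:
  `N_{B/O}(s)` is associated to `π ^ (∑ f_i c_i)`.
* `normVal_val` : for `x ≠ 0` in `L` with `x / τ_i ^ (a_i)` a unit of `W i` for all `i`
  (`τ_i` a uniformiser of `W i`, `a_i : ℤ`): `N_{L/K}(x) / π ^ (∑ f_i a_i)` is a unit of `O`.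
-/
import Fermat.Agent.H68.SS2.NormValCore
import Fermat.Agent.H68.SS2.NormRedVal
import Fermat.Agent.H11.SS2.Val3Defs

set_option autoImplicit false
set_option linter.style.haveILetI false
set_option linter.unusedSectionVars false

noncomputable section

namespace Fermat.Agent.H68.SS2

open Fermat.Agent.H83.SS2 Fermat.Agent.H11.SS2 IsDedekindDomain

attribute [local instance] isDedekindDomain_closure isFractionRing_closure finite_closure

section val

variable {K L : Type} [Field K] [Field L] [Algebra K L] [FiniteDimensional K L]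
  [Algebra.IsSeparable K L] {O : ValuationSubring K} [IsPrincipalIdealRing O]
  {π : K} (hπ0 : π ≠ 0) (hπ : π ∈ O.nonunits) (hπu : ∀ y ∈ O.nonunits, y / π ∈ O)

/-- the valuation of a uniformiser is `exp (-1)` -/
theorem valuation_dkUnif {V : ValuationSubring L} (hV : V.comap (algebraMap K L) = O)
    {τ : L} (hτ : DKUnif V τ) :
    (centerSpec hV hπ0 hπ).valuation L τ = WithZero.exp (-1 : ℤ) := by
  apply le_antisymm
  · exact zm0_le_exp_neg_one_of_lt_one
      ((mem_nonunits_iff_valuation_lt_one hV hπ0 hπ τ).1 hτ.2.1)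
  · obtain ⟨ϖ, hϖ⟩ := HeightOneSpectrum.valuation_exists_uniformizer L (centerSpec hV hπ0 hπ)
    have h1 : ϖ ∈ V.nonunits := by
      rw [mem_nonunits_iff_valuation_lt_one hV hπ0 hπ, hϖ, ← WithZero.exp_zero,
        WithZero.exp_lt_exp]
      omega
    have h2 := valuation_le_one_of_mem hV hπ0 hπ (hτ.2.2 ϖ h1)
    rw [map_div₀, div_le_one₀ (zero_lt_iff.2 ((Valuation.ne_zero_iff _).2 hτ.1)), hϖ] at h2
    exact h2

/-- units have valuation one -/
theorem valuation_eq_one_of_vUnit {V : ValuationSubring L} (hV : V.comap (algebraMap K L) = O)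
    {z : L} (hz0 : z ≠ 0) (hz : VUnit V z) :
    (centerSpec hV hπ0 hπ).valuation L z = 1 := by
  have h1 := valuation_le_one_of_mem hV hπ0 hπ hz.1
  have h2 := valuation_le_one_of_mem hV hπ0 hπ hz.2
  rw [map_inv₀] at h2
  have h3 : (centerSpec hV hπ0 hπ).valuation L z ≠ 0 := (Valuation.ne_zero_iff _).2 hz0
  apply le_antisymm h1
  exact (inv_le_one₀ (zero_lt_iff.2 h3)).1 h2

/-- `x / τ ^ a` a unit at `V` means `v(x) = exp (-a)` -/
theorem valuation_eq_exp_of_vUnit {V : ValuationSubring L} (hV : V.comap (algebraMap K L) = O)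
    {τ : L} (hτ : DKUnif V τ) {x : L} (hx : x ≠ 0) {a : ℤ} (ha : VUnit V (x / τ ^ a)) :
    (centerSpec hV hπ0 hπ).valuation L x = WithZero.exp (-a) := by
  have h0 : x / τ ^ a ≠ 0 := div_ne_zero hx (zpow_ne_zero _ hτ.1)
  have h1 := valuation_eq_one_of_vUnit hπ0 hπ hV h0 ha
  have hτv := valuation_dkUnif hπ0 hπ hV hτ
  rw [map_div₀, map_zpow₀, hτv] at h1
  have h2 : (WithZero.exp (-1 : ℤ)) ^ a = WithZero.exp (-a) := by
    rw [← WithZero.exp_zsmul]
    simp
  rw [h2] at h1
  have h3 : (WithZero.exp (-a) : WithZero (Multiplicative ℤ)) ≠ 0 := WithZero.exp_ne_zero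
  exact (div_eq_one_iff_eq h3).1 h1

end val

end Fermat.Agent.H68.SS2

namespace Fermat.Agent.H68.SS2

open Fermat.Agent.H83.SS2 Fermat.Agent.H11.SS2 IsDedekindDomain

attribute [local instance] isDedekindDomain_closure isFractionRing_closure finite_closure

section val2

variable {K L : Type} [Field K] [Field L] [Algebra K L] [FiniteDimensional K L]
  [Algebra.IsSeparable K L] [CharZero K] {O : ValuationSubring K} [IsPrincipalIdealRing O]
  {π : K} (hπ0 : π ≠ 0) (hπ : π ∈ O.nonunits) (hπu : ∀ y ∈ O.nonunits, y / π ∈ O)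

include hπ0 hπ hπu in
/-- **Valuation of a norm**, for elements of the integral closure. -/
theorem normVal_closure {r : ℕ} (W : Fin r → ValuationSubring L) (e f : Fin r → ℕ)
    (hW : Function.Injective W) (hWO : ∀ i, (W i).comap (algebraMap K L) = O)
    (t : Fin r → L) (ht : ∀ i, t i ∈ (W i).nonunits) (ht0 : ∀ i, t i ≠ 0)
    (hu : ∀ i, algebraMap K L π / t i ^ e i ∈ W i)
    (b : ∀ i, Fin (f i) → L) (hb : ∀ i j, b i j ∈ W i)
    (hind : ∀ i (c : Fin (f i) → K), (∀ j, c j ∈ O) →
      (∑ j, algebraMap K L (c j) * b i j) ∈ (W i).nonunits → ∀ j, c j ∈ O.nonunits)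
    (hsum : Module.finrank K L ≤ ∑ i, e i * f i)
    (s : integralClosure O L) (hs : s ≠ 0) (c : Fin r → ℕ)
    (hc : ∀ i, (centerSpec (hWO i) hπ0 hπ).valuation L (s : L) = WithZero.exp (-(c i : ℤ))) :
    Associated (Algebra.norm O s) (unifO hπ ^ (∑ i, f i * c i)) := by
  classical
  have he : ∀ i, e i ≤ (center O (W i) (hWO i)).ramificationIdx O := fun i =>
    le_ramificationIdx_center hπ0 hπ hπu (hWO i) (ht i) (ht0 i) (hu i)
  have hf : ∀ i, f i ≤ (center O (W i) (hWO i)).inertiaDeg O := fun i =>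
    le_inertiaDeg_center hπ0 hπ (hWO i) (b i) (hb i) (hind i)
  obtain ⟨hall, hexact⟩ := count_main hπ0 hπ W e f hW hWO he hf hsum
  haveI hfree : Module.Free O (integralClosure O L) :=
    IsIntegralClosure.module_free O K L (integralClosure O L)
  haveI : CharZero O := (algebraMap O K).charZero
  haveI : CharZero (FractionRing O) :=
    charZero_of_injective_algebraMap (IsFractionRing.injective O (FractionRing O))
  have hbij : Function.Bijective (fun i => centerSpec (hWO i) hπ0 hπ) := by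
    constructor
    · intro i j hij
      have h1 : center O (W i) (hWO i) = center O (W j) (hWO j) :=
        congrArg HeightOneSpectrum.asIdeal hij
      exact hW (eq_of_center_eq (hWO i) (hWO j) hπ0 hπ h1)
    · intro v
      obtain ⟨i, hi⟩ := hall v.asIdeal v.isPrime (liesOver_of_heightOneSpectrum hπ0 hπ v)
      exact ⟨i, (HeightOneSpectrum.ext hi).symm⟩
  have key := span_norm_eq_pow_sum (R := O) (S := integralClosure O L)
    (fun i => centerSpec (hWO i) hπ0 hπ) hbij s hs
  have hcount : ∀ i, (Associates.mk (centerSpec (hWO i) hπ0 hπ).asIdeal).count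
      (Associates.mk (Ideal.span {s})).factors = c i := by
    intro i
    have h1 := hc i
    have h2 : (centerSpec (hWO i) hπ0 hπ).valuation L (algebraMap (integralClosure O L) L s)
        = WithZero.exp (-(c i : ℤ)) := h1
    rw [HeightOneSpectrum.valuation_of_algebraMap, HeightOneSpectrum.intValuation_if_neg _ hs]
      at h2
    have h3 := WithZero.exp_injective h2
    omega
  have hsumeq : (∑ i, (centerSpec (hWO i) hπ0 hπ).asIdeal.inertiaDeg O *
      (Associates.mk (centerSpec (hWO i) hπ0 hπ).asIdeal).count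
        (Associates.mk (Ideal.span {s})).factors) = ∑ i, f i * c i := by
    refine Finset.sum_congr rfl (fun i _ => ?_)
    rw [hcount i, centerSpec_asIdeal, ← (hexact i).2]
  rw [hsumeq, maximalIdeal_eq_span hπ0 hπ hπu, Ideal.span_singleton_pow,
    Ideal.span_singleton_eq_span_singleton] at key
  exact key

include hπ0 hπ hπu in
/-- **Valuation of a norm**: if `x / τ_i ^ (a_i)` is a unit of `W i` for all `i` (`τ_i` a
uniformiser of `W i`), then `N(x) / π ^ (∑ f_i a_i)` is a unit of `O`. -/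
theorem normVal_val {r : ℕ} (W : Fin r → ValuationSubring L) (e f : Fin r → ℕ)
    (hW : Function.Injective W) (hWO : ∀ i, (W i).comap (algebraMap K L) = O)
    (t : Fin r → L) (ht : ∀ i, t i ∈ (W i).nonunits) (ht0 : ∀ i, t i ≠ 0)
    (hu : ∀ i, algebraMap K L π / t i ^ e i ∈ W i)
    (b : ∀ i, Fin (f i) → L) (hb : ∀ i j, b i j ∈ W i)
    (hind : ∀ i (c : Fin (f i) → K), (∀ j, c j ∈ O) →
      (∑ j, algebraMap K L (c j) * b i j) ∈ (W i).nonunits → ∀ j, c j ∈ O.nonunits)
    (hsum : Module.finrank K L ≤ ∑ i, e i * f i)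
    (τ : Fin r → L) (hτ : ∀ i, DKUnif (W i) (τ i))
    (x : L) (hx : x ≠ 0) (a : Fin r → ℤ) (ha : ∀ i, VUnit (W i) (x / τ i ^ a i)) :
    VUnit O (Algebra.norm K x / π ^ (∑ i, (f i : ℤ) * a i)) := by
  classical
  obtain ⟨s₁, s₂, hs₂, hx12⟩ := IsFractionRing.div_surjective (A := integralClosure O L) x
  have hs₂0 : s₂ ≠ 0 := nonZeroDivisors.ne_zero hs₂
  have hs₁0 : s₁ ≠ 0 := by
    rintro rfl
    rw [map_zero, zero_div] at hx12
    exact hx hx12.symm
  -- orders of `s₁`, `s₂`
  have hord : ∀ (s : integralClosure O L), s ≠ 0 → ∀ i, ∃ c : ℕ,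
      (centerSpec (hWO i) hπ0 hπ).valuation L (s : L) = WithZero.exp (-(c : ℤ)) := by
    intro s hs i
    refine ⟨(Associates.mk (centerSpec (hWO i) hπ0 hπ).asIdeal).count
      (Associates.mk (Ideal.span {s})).factors, ?_⟩
    have : (centerSpec (hWO i) hπ0 hπ).valuation L (algebraMap (integralClosure O L) L s)
        = _ := HeightOneSpectrum.valuation_of_algebraMap _ s
    rw [HeightOneSpectrum.intValuation_if_neg _ hs] at this
    exact this
  choose c₁ hc₁ using hord s₁ hs₁0
  choose c₂ hc₂ using hord s₂ hs₂0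
  have h1 := normVal_closure hπ0 hπ hπu W e f hW hWO t ht ht0 hu b hb hind hsum s₁ hs₁0 c₁ hc₁
  have h2 := normVal_closure hπ0 hπ hπu W e f hW hWO t ht ht0 hu b hb hind hsum s₂ hs₂0 c₂ hc₂
  -- `a i = c₁ i - c₂ i`
  have hac : ∀ i, a i = (c₁ i : ℤ) - c₂ i := by
    intro i
    have h3 := valuation_eq_exp_of_vUnit hπ0 hπ (hWO i) (hτ i) hx (ha i)
    have h4 : (centerSpec (hWO i) hπ0 hπ).valuation L x
        = WithZero.exp (-(c₁ i : ℤ)) / WithZero.exp (-(c₂ i : ℤ)) := by
      rw [← hx12, map_div₀]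
      congr 1
      · exact hc₁ i
      · exact hc₂ i
    rw [h3, ← WithZero.exp_sub] at h4
    have := WithZero.exp_injective h4
    omega
  obtain ⟨u₁, hu₁⟩ := h1
  obtain ⟨u₂, hu₂⟩ := h2
  have e1 : Algebra.norm K (s₁ : L) * ((u₁ : O) : K) = π ^ (∑ i, f i * c₁ i) := by
    rw [norm_closure_eq]
    have := congrArg (fun z : O => (z : K)) hu₁
    simpa [unifO] using this
  have e2 : Algebra.norm K (s₂ : L) * ((u₂ : O) : K) = π ^ (∑ i, f i * c₂ i) := by
    rw [norm_closure_eq]
    have := congrArg (fun z : O => (z : K)) hu₂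
    simpa [unifO] using this
  have hu₁0 : ((u₁ : O) : K) ≠ 0 := by
    intro h
    have : (u₁ : O) = 0 := Subtype.ext h
    exact u₁.ne_zero this
  have hu₂0 : ((u₂ : O) : K) ≠ 0 := by
    intro h
    have : (u₂ : O) = 0 := Subtype.ext h
    exact u₂.ne_zero this
  have hN2 : Algebra.norm K (s₂ : L) ≠ 0 := by
    intro h
    rw [h, zero_mul] at e2
    exact pow_ne_zero _ hπ0 e2.symm
  have hsumZ : (∑ i, (f i : ℤ) * a i)
      = ((∑ i, f i * c₁ i : ℕ) : ℤ) - ((∑ i, f i * c₂ i : ℕ) : ℤ) := by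
    push_cast
    rw [← Finset.sum_sub_distrib]
    refine Finset.sum_congr rfl (fun i _ => ?_)
    rw [hac i]
    ring
  have hval : Algebra.norm K x / π ^ (∑ i, (f i : ℤ) * a i)
      = ((u₂ : O) : K) / ((u₁ : O) : K) := by
    have hx' : x = algebraMap (integralClosure O L) L s₁ / algebraMap (integralClosure O L) L s₂ :=
      hx12.symm
    have hN : Algebra.norm K x = Algebra.norm K (s₁ : L) / Algebra.norm K (s₂ : L) := by
      rw [eq_div_iff hN2, ← map_mul]
      congr 1
      rw [hx']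
      have h0 : algebraMap (integralClosure O L) L s₂ ≠ 0 := fun h =>
        hs₂0 (Subtype.ext h)
      exact div_mul_cancel₀ _ h0
    have hN1 : Algebra.norm K (s₁ : L) ≠ 0 := by
      intro h
      rw [h, zero_mul] at e1
      exact pow_ne_zero _ hπ0 e1.symm
    rw [hN, hsumZ, zpow_sub₀ hπ0, zpow_natCast, zpow_natCast, ← e1, ← e2]
    field_simp
  have hinv : ∀ u : Oˣ, (((u⁻¹ : Oˣ) : O) : K) = (((u : O) : K))⁻¹ := by
    intro u
    have h1 : (u : O) * ((u⁻¹ : Oˣ) : O) = 1 := u.mul_inv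
    have h : ((u : O) : K) * (((u⁻¹ : Oˣ) : O) : K) = 1 :=
      calc ((u : O) : K) * (((u⁻¹ : Oˣ) : O) : K)
          = (((u : O) * ((u⁻¹ : Oˣ) : O) : O) : K) := rfl
        _ = ((1 : O) : K) := by rw [h1]
        _ = 1 := rfl
    exact eq_inv_of_mul_eq_one_right h
  rw [hval]
  constructor
  · rw [div_eq_mul_inv, ← hinv u₁]
    exact O.mul_mem _ _ (u₂ : O).2 ((u₁⁻¹ : Oˣ) : O).2
  · rw [inv_div, div_eq_mul_inv, ← hinv u₂]
    exact O.mul_mem _ _ (u₁ : O).2 ((u₂⁻¹ : Oˣ) : O).2

end val2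

end Fermat.Agent.H68.SS2

end
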