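/-
P-SS2 row 991 (SS2-A7 NORMRED, second seat helper68): the norm hypotheses of helper87's table,
`Fermat.Agent.H87.SS2.Val3NormHyps`, from the keystone interface `Val3Data`.

* `ExhaustHyp O π W e f` : the hypotheses of helper83's `exhaust`, bundled.
* `ExhaustHyp.normRed`, `ExhaustHyp.normVal`, `ExhaustHyp.isIntegral` : norm reduction for
  constants, valuation of a norm, integrality, on bundled hypotheses.
* `exhaustHyp_split`, `exhaustHyp_insep` : the two shapes occurring in `Val3Data`.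
* `rInsep_of_exhaustHyp` : `φ (N x) ≡ x ^ q` for a purely inseparable residue extension.
* `val3NormHyps` : `Val3Data → Val3NormHyps`.
-/
import Fermat.Agent.H68.SS2.NormVal
import Fermat.Agent.H87.SS2.Val3TableDefs

set_option autoImplicit false
set_option linter.style.haveILetI false
set_option linter.unusedSectionVars false

noncomputable section

namespace Fermat.Agent.H68.SS2

open Fermat.Agent.H11.SS2 Fermat.Agent.H87.SS2 Fermat.Agent.H83.SS2

/-- The hypotheses of `Fermat.Agent.H83.SS2.exhaust`, bundled. -/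
structure ExhaustHyp {K L : Type} [Field K] [Field L] [Algebra K L] (O : ValuationSubring K)
    (π : K) {r : ℕ} (W : Fin r → ValuationSubring L) (e f : Fin r → ℕ) : Prop where
  unif : DKUnif O π
  inj : Function.Injective W
  comap : ∀ i, (W i).comap (algebraMap K L) = O
  data : ∃ (t : Fin r → L) (b : ∀ i, Fin (f i) → L),
    (∀ i, t i ∈ (W i).nonunits) ∧ (∀ i, t i ≠ 0) ∧ (∀ i, algebraMap K L π / t i ^ e i ∈ W i) ∧
    (∀ i j, b i j ∈ W i) ∧
    (∀ i (c : Fin (f i) → K), (∀ j, c j ∈ O) →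
      (∑ j, algebraMap K L (c j) * b i j) ∈ (W i).nonunits → ∀ j, c j ∈ O.nonunits)
  sum : Module.finrank K L ≤ ∑ i, e i * f i

section bundled

variable {K L : Type} [Field K] [Field L] [Algebra K L] [FiniteDimensional K L]
  [Algebra.IsSeparable K L] {O : ValuationSubring K} [IsPrincipalIdealRing O]
  {π : K} {r : ℕ} {W : Fin r → ValuationSubring L} {e f : Fin r → ℕ}

/-- norm reduction for constants, bundled form -/
theorem ExhaustHyp.normRed (h : ExhaustHyp O π W e f) (x : L) (c : Fin r → K)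
    (hcO : ∀ i, c i ∈ O) (hc : ∀ i, x - algebraMap K L (c i) ∈ (W i).nonunits) :
    Algebra.norm K x - ∏ i, c i ^ (e i * f i) ∈ O.nonunits := by
  obtain ⟨t, b, ht, ht0, hu, hb, hind⟩ := h.data
  exact normRed_val h.unif.1 h.unif.2.1 h.unif.2.2 W e f h.inj h.comap t ht ht0 hu b hb hind
    h.sum x c hcO hc

/-- elements of all the `W i` are integral over `O`, bundled form -/
theorem ExhaustHyp.isIntegral (h : ExhaustHyp O π W e f) (z : L) (hz : ∀ i, z ∈ W i) :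
    IsIntegral O z := by
  obtain ⟨t, b, ht, ht0, hu, hb, hind⟩ := h.data
  exact (exhaust h.unif.1 h.unif.2.1 h.unif.2.2 W e f h.inj h.comap t ht ht0 hu b hb hind
    h.sum).2.1 z hz

/-- valuation of a norm, bundled form -/
theorem ExhaustHyp.normVal [CharZero K] (h : ExhaustHyp O π W e f)
    (τ : Fin r → L) (hτ : ∀ i, DKUnif (W i) (τ i))
    (x : L) (hx : x ≠ 0) (a : Fin r → ℤ) (ha : ∀ i, VUnit (W i) (x / τ i ^ a i)) :
    VUnit O (Algebra.norm K x / π ^ (∑ i, (f i : ℤ) * a i)) := by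
  obtain ⟨t, b, ht, ht0, hu, hb, hind⟩ := h.data
  exact normVal_val h.unif.1 h.unif.2.1 h.unif.2.2 W e f h.inj h.comap t ht ht0 hu b hb hind
    h.sum τ hτ x hx a ha

end bundled

section shapes

variable {F E : Type} [Field F] [Field E]

/-- **Two branches of residue degree one.** -/
theorem exhaustHyp_split (φ : F →+* E) (O : ValuationSubring F) (π : F) (hπ : DKUnif O π)
    (W₁ W₂ : ValuationSubring E) (hne : W₁ ≠ W₂)
    (h₁ : W₁.comap φ = O) (h₂ : W₂.comap φ = O) (e₁ e₂ : ℕ)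
    (hsum : @Module.finrank F E _ _ (@Algebra.toModule F E _ _ φ.toAlgebra) ≤ e₁ + e₂)
    (t₁ t₂ : E) (ht₁ : t₁ ∈ W₁.nonunits) (ht₁0 : t₁ ≠ 0) (hu₁ : φ π / t₁ ^ e₁ ∈ W₁)
    (ht₂ : t₂ ∈ W₂.nonunits) (ht₂0 : t₂ ≠ 0) (hu₂ : φ π / t₂ ^ e₂ ∈ W₂) :
    @ExhaustHyp F E _ _ φ.toAlgebra O π 2 ![W₁, W₂] ![e₁, e₂] (fun _ => 1) := by
  letI : Algebra F E := φ.toAlgebra
  refine ⟨hπ, ?_, ?_, ⟨![t₁, t₂], fun _ _ => 1, ?_, ?_, ?_, ?_, ?_⟩, ?_⟩
  · intro i j hij
    fin_cases i <;> fin_cases j <;> simp_all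
  · intro i
    fin_cases i
    · exact h₁
    · exact h₂
  · intro i; fin_cases i; exacts [ht₁, ht₂]
  · intro i; fin_cases i; exacts [ht₁0, ht₂0]
  · intro i; fin_cases i; exacts [hu₁, hu₂]
  · intro i j; exact ValuationSubring.one_mem _
  · intro i c hc hsumc j
    have hj : j = 0 := Subsingleton.elim _ _
    subst hj
    have h3 : algebraMap F E (c 0) ∈ (![W₁, W₂] i).nonunits := by
      simpa using hsumc
    have hcomap : (![W₁, W₂] i).comap (algebraMap F E) = O := by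
      fin_cases i
      · exact h₁
      · exact h₂
    exact (algebraMap_mem_nonunits_iff_of_comap hcomap (c 0)).1 h3
  · simpa [Fin.sum_univ_two] using hsum

/-- **One branch with residue degree `q`** (residues of `1, z, …, z^(q-1)` independent). -/
theorem exhaustHyp_insep (φ : F →+* E) (O : ValuationSubring F) (π : F) (hπ : DKUnif O π)
    (W : ValuationSubring E) (h₁ : W.comap φ = O) (q : ℕ)
    (hsum : @Module.finrank F E _ _ (@Algebra.toModule F E _ _ φ.toAlgebra) ≤ q)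
    (t : E) (ht : t ∈ W.nonunits) (ht0 : t ≠ 0) (hu : φ π / t ∈ W)
    (z : E) (hz : z ∈ W)
    (hind : ∀ c : Fin q → F, (∀ j, c j ∈ O) → (∑ j, φ (c j) * z ^ (j : ℕ)) ∈ W.nonunits →
      ∀ j, c j ∈ O.nonunits) :
    @ExhaustHyp F E _ _ φ.toAlgebra O π 1 ![W] ![1] (fun _ => q) := by
  letI : Algebra F E := φ.toAlgebra
  refine ⟨hπ, ?_, ?_, ⟨![t], fun _ j => z ^ (j : ℕ), ?_, ?_, ?_, ?_, ?_⟩, ?_⟩
  · intro i j _; exact Subsingleton.elim _ _
  · intro i; fin_cases i; exact h₁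
  · intro i; fin_cases i; exact ht
  · intro i; fin_cases i; exact ht0
  · intro i
    fin_cases i
    change φ π / t ^ 1 ∈ W
    rw [pow_one]
    exact hu
  · intro i j; fin_cases i; exact pow_mem hz _
  · intro i c hc hsumc
    fin_cases i
    exact hind c hc hsumc
  · simpa using hsum

end shapes

section table

variable {F E : Type} [Field F] [Field E] [CharZero F]

/-- `N (φ y) = y ^ [E : F]` -/
theorem norm_map_eq_pow (φ : F →+* E) (q : ℕ)
    (hd : @Module.finrank F E _ _ (@Algebra.toModule F E _ _ φ.toAlgebra) = q) (y : F) :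
    @Algebra.norm F E _ _ φ.toAlgebra (φ y) = y ^ q := by
  letI : Algebra F E := φ.toAlgebra
  have h := Algebra.norm_algebraMap (R := F) (S := E) y
  rw [hd] at h
  exact h

/-- valuation of a norm, two branches of residue degree one -/
theorem vnTwo_of_exhaustHyp (φ : F →+* E)
    (hfd : @FiniteDimensional F E _ _ (@Algebra.toModule F E _ _ φ.toAlgebra))
    (O : ValuationSubring F) (hO : IsPrincipalIdealRing O) (π : F)
    (W₁ W₂ : ValuationSubring E) (e₁ e₂ : ℕ)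
    (h : @ExhaustHyp F E _ _ φ.toAlgebra O π 2 ![W₁, W₂] ![e₁, e₂] (fun _ => 1))
    (t₁ t₂ : E) (ht₁ : DKUnif W₁ t₁) (ht₂ : DKUnif W₂ t₂) :
    VNTwo (@Algebra.norm F E _ _ φ.toAlgebra) O π W₁ W₂ t₁ t₂ 1 1 := by
  letI : Algebra F E := φ.toAlgebra
  haveI := hfd
  haveI := hO
  intro x hx a b ha hb
  have key := h.normVal ![t₁, t₂] (by intro i; fin_cases i; exacts [ht₁, ht₂]) x hx ![a, b]
    (by intro i; fin_cases i; exacts [ha, hb])
  have hsum : (∑ i : Fin 2, (((fun _ => 1 : Fin 2 → ℕ) i : ℕ) : ℤ) * ![a, b] i)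
      = ((1 : ℕ) : ℤ) * a + ((1 : ℕ) : ℤ) * b := by
    rw [Fin.sum_univ_two]
    rfl
  rw [hsum] at key
  exact key

/-- valuation of a norm, one branch of residue degree `q` -/
theorem vnOne_of_exhaustHyp (φ : F →+* E)
    (hfd : @FiniteDimensional F E _ _ (@Algebra.toModule F E _ _ φ.toAlgebra))
    (O : ValuationSubring F) (hO : IsPrincipalIdealRing O) (π : F)
    (W : ValuationSubring E) (q : ℕ)
    (h : @ExhaustHyp F E _ _ φ.toAlgebra O π 1 ![W] ![1] (fun _ => q))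
    (t : E) (ht : DKUnif W t) :
    VNOne (@Algebra.norm F E _ _ φ.toAlgebra) O π W t q := by
  letI : Algebra F E := φ.toAlgebra
  haveI := hfd
  haveI := hO
  intro x hx a ha
  have key := h.normVal ![t] (by intro i; fin_cases i; exact ht) x hx ![a]
    (by intro i; fin_cases i; exact ha)
  have hsum : (∑ i : Fin 1, (((fun _ => q : Fin 1 → ℕ) i : ℕ) : ℤ) * ![a] i)
      = (q : ℤ) * a := by
    rw [Fin.sum_univ_one]
    rfl
  rw [hsum] at key
  exact key

/-- norm reduction, two branches of residue degree one -/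
theorem r1Two_of_exhaustHyp (φ : F →+* E)
    (hfd : @FiniteDimensional F E _ _ (@Algebra.toModule F E _ _ φ.toAlgebra))
    (O : ValuationSubring F) (hO : IsPrincipalIdealRing O) (π : F)
    (W₁ W₂ : ValuationSubring E) (e₁ e₂ : ℕ)
    (h : @ExhaustHyp F E _ _ φ.toAlgebra O π 2 ![W₁, W₂] ![e₁, e₂] (fun _ => 1)) :
    R1Two φ (@Algebra.norm F E _ _ φ.toAlgebra) O W₁ W₂ e₁ e₂ := by
  letI : Algebra F E := φ.toAlgebra
  haveI := hfd
  haveI := hO
  intro x y₁ y₂ hy₁ hy₂ hx₁ hx₂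
  have key := h.normRed x ![y₁, y₂] (by intro i; fin_cases i; exacts [hy₁, hy₂])
    (by intro i; fin_cases i; exacts [hx₁, hx₂])
  have hprod : (∏ i : Fin 2, ![y₁, y₂] i ^ (![e₁, e₂] i * (fun _ => 1 : Fin 2 → ℕ) i))
      = y₁ ^ e₁ * y₂ ^ e₂ := by
    rw [Fin.prod_univ_two]
    simp
  rw [hprod] at key
  exact key

/-- norms of `1`-units, two branches -/
theorem r0Two_of_exhaustHyp (φ : F →+* E)
    (hfd : @FiniteDimensional F E _ _ (@Algebra.toModule F E _ _ φ.toAlgebra))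
    (O : ValuationSubring F) (hO : IsPrincipalIdealRing O) (π : F)
    (W₁ W₂ : ValuationSubring E) (e₁ e₂ : ℕ)
    (h : @ExhaustHyp F E _ _ φ.toAlgebra O π 2 ![W₁, W₂] ![e₁, e₂] (fun _ => 1)) :
    R0Two (@Algebra.norm F E _ _ φ.toAlgebra) O W₁ W₂ := by
  intro x hx₁ hx₂
  have key := r1Two_of_exhaustHyp φ hfd O hO π W₁ W₂ e₁ e₂ h x 1 1 O.one_mem O.one_mem
    (by rw [map_one]; exact hx₁) (by rw [map_one]; exact hx₂)
  simpa using key

/-- norm reduction for constants, one branch -/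
theorem r1One_of_exhaustHyp (φ : F →+* E)
    (hfd : @FiniteDimensional F E _ _ (@Algebra.toModule F E _ _ φ.toAlgebra))
    (O : ValuationSubring F) (hO : IsPrincipalIdealRing O) (π : F)
    (W : ValuationSubring E) (q : ℕ)
    (h : @ExhaustHyp F E _ _ φ.toAlgebra O π 1 ![W] ![1] (fun _ => q))
    (x : E) (y : F) (hy : y ∈ O) (hx : x - φ y ∈ W.nonunits) :
    @Algebra.norm F E _ _ φ.toAlgebra x - y ^ q ∈ O.nonunits := by
  letI : Algebra F E := φ.toAlgebra
  haveI := hfd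
  haveI := hO
  have key := h.normRed x ![y] (by intro i; fin_cases i; exact hy)
    (by intro i; fin_cases i; exact hx)
  have hprod : (∏ i : Fin 1, ![y] i ^ (![1] i * (fun _ => q : Fin 1 → ℕ) i)) = y ^ q := by
    rw [Fin.prod_univ_one]
    simp
  rw [hprod] at key
  exact key

/-- norms of `1`-units, one branch -/
theorem r0One_of_exhaustHyp (φ : F →+* E)
    (hfd : @FiniteDimensional F E _ _ (@Algebra.toModule F E _ _ φ.toAlgebra))
    (O : ValuationSubring F) (hO : IsPrincipalIdealRing O) (π : F)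
    (W : ValuationSubring E) (q : ℕ)
    (h : @ExhaustHyp F E _ _ φ.toAlgebra O π 1 ![W] ![1] (fun _ => q)) :
    R0One (@Algebra.norm F E _ _ φ.toAlgebra) O W := by
  intro x hx
  have key := r1One_of_exhaustHyp φ hfd O hO π W q h x 1 O.one_mem
    (by rw [map_one]; exact hx)
  simpa using key

/-- `φ (N x) ≡ x ^ q` for one branch with purely inseparable residue extension of degree `q`,
`q` a prime number which is not a unit of `O`. -/
theorem rInsep_of_exhaustHyp (φ : F →+* E)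
    (hfd : @FiniteDimensional F E _ _ (@Algebra.toModule F E _ _ φ.toAlgebra))
    (O : ValuationSubring F) (hO : IsPrincipalIdealRing O) (π : F)
    (W : ValuationSubring E) (hcomap : W.comap φ = O) (q : ℕ) (hq : q.Prime)
    (hqO : (q : F) ∈ O.nonunits)
    (h : @ExhaustHyp F E _ _ φ.toAlgebra O π 1 ![W] ![1] (fun _ => q))
    (hins : ∀ w ∈ W, ∃ b ∈ O, w ^ q - φ b ∈ W.nonunits) :
    RInsep φ (@Algebra.norm F E _ _ φ.toAlgebra) W q := by
  intro x hx
  obtain ⟨b, hbO, hb⟩ := hins x hx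
  have h1 := r1One_of_exhaustHyp φ hfd O hO π W q h (x ^ q) b hbO hb
  rw [map_pow] at h1
  set N : F := @Algebra.norm F E _ _ φ.toAlgebra x with hN
  -- `N ^ q ∈ O`, hence `N ∈ O`
  have hNq : N ^ q ∈ O := by
    have : N ^ q = (N ^ q - b ^ q) + b ^ q := by ring
    rw [this]
    exact O.add_mem _ _ (mem_of_mem_nonunits O h1) (pow_mem hbO q)
  have hNO : N ∈ O := by
    rw [← O.valuation_le_one_iff] at hNq ⊢
    rw [map_pow] at hNq
    exact (pow_le_one_iff hq.ne_zero).1 hNq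
  -- Frobenius in `O`
  obtain ⟨r, hr⟩ := exists_add_pow_prime_eq hq (⟨N - b, O.sub_mem hNO hbO⟩ : O) ⟨b, hbO⟩
  have hr' : (N - b + b) ^ q = (N - b) ^ q + b ^ q + (q : F) * (N - b) * b * (r : F) := by
    have := congrArg (Subtype.val) hr
    push_cast at this
    exact this
  have h2 : (N - b) ^ q = (N ^ q - b ^ q) - (q : F) * ((N - b) * b * (r : F)) := by
    have h3 : (N - b + b) ^ q = N ^ q := by rw [sub_add_cancel]
    rw [h3] at hr'
    rw [hr']
    ring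
  have h4 : (N - b) ^ q ∈ O.nonunits := by
    rw [h2, O.mem_nonunits_iff]
    refine Valuation.map_sub_lt _ (O.mem_nonunits_iff.1 h1) ?_
    exact O.mem_nonunits_iff.1 (mul_mem_nonunits O hqO
      (O.mul_mem _ _ (O.mul_mem _ _ (O.sub_mem hNO hbO) hbO) r.2))
  have h5 : N - b ∈ O.nonunits := by
    rw [O.mem_nonunits_iff] at h4 ⊢
    rw [map_pow] at h4
    exact (pow_lt_one_iff hq.ne_zero).1 h4
  -- transport to `W`
  have h6 : φ (N - b) ∈ W.nonunits := by
    letI : Algebra F E := φ.toAlgebra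
    exact (algebraMap_mem_nonunits_iff_of_comap (K := F) (L := E) hcomap (N - b)).2 h5
  have h7 : φ N - x ^ q = φ (N - b) - (x ^ q - φ b) := by
    rw [map_sub]
    ring
  rw [h7, W.mem_nonunits_iff]
  exact Valuation.map_sub_lt _ (W.mem_nonunits_iff.1 h6) (W.mem_nonunits_iff.1 hb)

/-- **The norm hypotheses of the table of the three vertical valuations**, from `Val3Data`:
`q` a prime number, `O₁`, `O₂` discrete valuation subrings of `F` with uniformiser `q`,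
`[E : α F] = [E : β F] = q`, `Nα`, `Nβ` the two norms. -/
theorem val3NormHyps (α β : F →+* E)
    (O₁ O₂ : ValuationSubring F) (hO₁ : IsPrincipalIdealRing O₁) (hO₂ : IsPrincipalIdealRing O₂)
    (V₂₀ V₁₁ V₀₂ : ValuationSubring E) (q : ℕ) (hq : q.Prime) (Y₁ : F) (Z : E)
    (hu₁ : DKUnif O₁ (q : F)) (hu₂ : DKUnif O₂ (q : F))
    (hdα : @FiniteDimensional F E _ _ (@Algebra.toModule F E _ _ α.toAlgebra) ∧
      @Module.finrank F E _ _ (@Algebra.toModule F E _ _ α.toAlgebra) = q)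
    (hdβ : @FiniteDimensional F E _ _ (@Algebra.toModule F E _ _ β.toAlgebra) ∧
      @Module.finrank F E _ _ (@Algebra.toModule F E _ _ β.toAlgebra) = q)
    (h : Val3Data α β O₁ O₂ V₂₀ V₁₁ V₀₂ q Y₁ Z) :
    Val3NormHyps α β (@Algebra.norm F E _ _ α.toAlgebra) (@Algebra.norm F E _ _ β.toAlgebra)
      O₁ O₂ V₂₀ V₁₁ V₀₂ q Z := by
  have hqE : (q : E) ≠ 0 := h.unif₂₀.1
  have hq1 : q ≤ 1 + (q - 1) := by omega
  have hq2 : q ≤ (q - 1) + 1 := by omega
  have hαq : α (q : F) = (q : E) := map_natCast α q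
  have hβq : β (q : F) = (q : E) := map_natCast β q
  have hone : ∀ W : ValuationSubring E, (q : E) / (q : E) ^ 1 ∈ W := by
    intro W
    rw [pow_one, div_self hqE]
    exact W.one_mem
  have hone' : ∀ W : ValuationSubring E, (q : E) / (q : E) ∈ W := by
    intro W
    rw [div_self hqE]
    exact W.one_mem
  -- the four exhaustions
  have Hα₁ : @ExhaustHyp F E _ _ α.toAlgebra O₁ (q : F) 2 ![V₂₀, V₁₁] ![1, q - 1]
      (fun _ => 1) :=
    exhaustHyp_split α O₁ (q : F) hu₁ V₂₀ V₁₁ h.ne₁ h.comap₂₀α h.comap₁₁α 1 (q - 1)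
      (by rw [hdα.2]; exact hq1) (q : E) Z h.unif₂₀.2.1 hqE (by rw [hαq]; exact hone _)
      h.unif₁₁.2.1 h.unif₁₁.1 (by rw [hαq]; exact h.ram₁₁.1)
  have Hα₂ : @ExhaustHyp F E _ _ α.toAlgebra O₂ (q : F) 1 ![V₀₂] ![1] (fun _ => q) :=
    exhaustHyp_insep α O₂ (q : F) hu₂ V₀₂ h.comap₀₂α q (by rw [hdα.2]) (q : E) h.unif₀₂.2.1 hqE
      (by rw [hαq]; exact hone' _) Z h.Z₀₂.1 h.insep₀₂α.2.2
  have Hβ₁ : @ExhaustHyp F E _ _ β.toAlgebra O₁ (q : F) 1 ![V₂₀] ![1] (fun _ => q) :=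
    exhaustHyp_insep β O₁ (q : F) hu₁ V₂₀ h.comap₂₀β q (by rw [hdβ.2]) (q : E) h.unif₂₀.2.1 hqE
      (by rw [hβq]; exact hone' _) Z h.Z₂₀.1 h.insep₂₀β.2.2
  have Hβ₂ : @ExhaustHyp F E _ _ β.toAlgebra O₂ (q : F) 2 ![V₁₁, V₀₂] ![q - 1, 1]
      (fun _ => 1) :=
    exhaustHyp_split β O₂ (q : F) hu₂ V₁₁ V₀₂ h.ne₃ h.comap₁₁β h.comap₀₂β (q - 1) 1
      (by rw [hdβ.2]; exact hq2) Z (q : E) h.unif₁₁.2.1 h.unif₁₁.1
      (by rw [hβq]; exact h.ram₁₁.1) h.unif₀₂.2.1 hqE (by rw [hβq]; exact hone _)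
  exact
    { normα := norm_map_eq_pow α q hdα.2
      normβ := norm_map_eq_pow β q hdβ.2
      vnα₁ := vnTwo_of_exhaustHyp α hdα.1 O₁ hO₁ _ V₂₀ V₁₁ _ _ Hα₁ _ _ h.unif₂₀ h.unif₁₁
      vnα₂ := vnOne_of_exhaustHyp α hdα.1 O₂ hO₂ _ V₀₂ q Hα₂ _ h.unif₀₂
      vnβ₁ := vnOne_of_exhaustHyp β hdβ.1 O₁ hO₁ _ V₂₀ q Hβ₁ _ h.unif₂₀
      vnβ₂ := vnTwo_of_exhaustHyp β hdβ.1 O₂ hO₂ _ V₁₁ V₀₂ _ _ Hβ₂ _ _ h.unif₁₁ h.unif₀₂
      r0α₁ := r0Two_of_exhaustHyp α hdα.1 O₁ hO₁ _ V₂₀ V₁₁ _ _ Hα₁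
      r0α₂ := r0One_of_exhaustHyp α hdα.1 O₂ hO₂ _ V₀₂ q Hα₂
      r0β₁ := r0One_of_exhaustHyp β hdβ.1 O₁ hO₁ _ V₂₀ q Hβ₁
      r0β₂ := r0Two_of_exhaustHyp β hdβ.1 O₂ hO₂ _ V₁₁ V₀₂ _ _ Hβ₂
      r1 := r1Two_of_exhaustHyp α hdα.1 O₁ hO₁ _ V₂₀ V₁₁ _ _ Hα₁
      r2 := rInsep_of_exhaustHyp α hdα.1 O₂ hO₂ _ V₀₂ h.comap₀₂α q hq hu₂.2.1 Hα₂ h.insep₀₂α.1
      r3 := rInsep_of_exhaustHyp β hdβ.1 O₁ hO₁ _ V₂₀ h.comap₂₀β q hq hu₁.2.1 Hβ₁ h.insep₂₀β.1 }

end table

end Fermat.Agent.H68.SS2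

end
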