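/-
P-SS / P-SS2 (helper68): **mixed norm reduction** in valuation-subring language.

`O` a discrete valuation subring of `F` with uniformiser `π` and residue characteristic `q`
(a prime number), `φ : F →+* E` finite of degree `≤ 1 + q`, and exactly two valuation subrings
of `E` above `O`:  `W₁` with `e = f = 1`  and  `W₂` with `e = 1`, `f = q` (the residue extension
is purely inseparable in the application; only `z ^ q ≡ φ b` is used).

* `sub_mem_nonunits_of_pow_sub_pow` : `x ^ q ≡ y ^ q ⇒ x ≡ y` modulo `𝔪_O` (Frobenius is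
  injective on the residue field).
* `exhaustHyp_mixed`  : the exhaustion hypotheses for the shape `(e, f) = ((1, 1), (1, q))`.
* `normRed_mixed`     : `z ≡ φ a` at `W₁`, `z ^ q ≡ φ b` at `W₂`  ⇒  `N z ≡ a b` at `O`.
* `normRed_mixed_map` : `z ∈ W₁`, `z ^ q ≡ φ b` at `W₂`, residue degree one at `W₁`
  ⇒  `φ (N z) ≡ z · φ b` at `W₁`
  (level `M q`: `α (N_α z) ≡ z · α (φ₁ y)` modulo `𝔪_{V_∞}` if `z ^ q ≡ α (φ₁ y)` modulo
  `𝔪_{V_0}`, e.g. if `z ≡ β y` modulo `𝔪_{V_0}`, by the Frobenius congruence).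
-/
import Fermat.Agent.H68.SS2.NormTable

set_option autoImplicit false
set_option linter.style.haveILetI false
set_option linter.unusedSectionVars false

noncomputable section

namespace Fermat.Agent.H68.SS2

open Fermat.Agent.H11.SS2 Fermat.Agent.H87.SS2 Fermat.Agent.H83.SS2

section frobenius

variable {F : Type} [Field F]

/-- Frobenius is injective on the residue field: `x ^ q ≡ y ^ q ⇒ x ≡ y` modulo `𝔪_O`, for a
prime number `q` which is not a unit of `O`. -/
theorem sub_mem_nonunits_of_pow_sub_pow (O : ValuationSubring F) (q : ℕ) (hq : q.Prime)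
    (hqO : (q : F) ∈ O.nonunits) (x y : F) (hy : y ∈ O) (h : x ^ q - y ^ q ∈ O.nonunits) :
    x - y ∈ O.nonunits := by
  have hxq : x ^ q ∈ O := by
    have : x ^ q = (x ^ q - y ^ q) + y ^ q := by ring
    rw [this]
    exact O.add_mem _ _ (mem_of_mem_nonunits O h) (pow_mem hy q)
  have hx : x ∈ O := by
    rw [← O.valuation_le_one_iff] at hxq ⊢
    rw [map_pow] at hxq
    exact (pow_le_one_iff hq.ne_zero).1 hxq
  obtain ⟨r, hr⟩ := exists_add_pow_prime_eq hq (⟨x - y, O.sub_mem hx hy⟩ : O) ⟨y, hy⟩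
  have hr' : (x - y + y) ^ q = (x - y) ^ q + y ^ q + (q : F) * (x - y) * y * (r : F) := by
    have := congrArg (Subtype.val) hr
    push_cast at this
    exact this
  have h2 : (x - y) ^ q = (x ^ q - y ^ q) - (q : F) * ((x - y) * y * (r : F)) := by
    have h3 : (x - y + y) ^ q = x ^ q := by rw [sub_add_cancel]
    rw [h3] at hr'
    rw [hr']
    ring
  have h4 : (x - y) ^ q ∈ O.nonunits := by
    rw [h2, O.mem_nonunits_iff]
    refine Valuation.map_sub_lt _ (O.mem_nonunits_iff.1 h) ?_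
    exact O.mem_nonunits_iff.1 (mul_mem_nonunits O hqO
      (O.mul_mem _ _ (O.mul_mem _ _ (O.sub_mem hx hy) hy) r.2))
  rw [O.mem_nonunits_iff] at h4 ⊢
  rw [map_pow] at h4
  exact (pow_lt_one_iff hq.ne_zero).1 h4

end frobenius

section mixed

variable {F E : Type} [Field F] [Field E]

/-- **Two branches, `(e, f) = (1, 1)` and `(1, q)`** (residues of `1, z₀, …, z₀^(q-1)`
independent at the second branch). -/
theorem exhaustHyp_mixed (φ : F →+* E) (O : ValuationSubring F) (π : F) (hπ : DKUnif O π)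
    (W₁ W₂ : ValuationSubring E) (hne : W₁ ≠ W₂)
    (h₁ : W₁.comap φ = O) (h₂ : W₂.comap φ = O) (q : ℕ)
    (hsum : @Module.finrank F E _ _ (@Algebra.toModule F E _ _ φ.toAlgebra) ≤ 1 + q)
    (t₁ t₂ : E) (ht₁ : t₁ ∈ W₁.nonunits) (ht₁0 : t₁ ≠ 0) (hu₁ : φ π / t₁ ∈ W₁)
    (ht₂ : t₂ ∈ W₂.nonunits) (ht₂0 : t₂ ≠ 0) (hu₂ : φ π / t₂ ∈ W₂)
    (z₀ : E) (hz₀ : z₀ ∈ W₂)
    (hind : ∀ c : Fin q → F, (∀ j, c j ∈ O) → (∑ j, φ (c j) * z₀ ^ (j : ℕ)) ∈ W₂.nonunits →
      ∀ j, c j ∈ O.nonunits) :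
    @ExhaustHyp F E _ _ φ.toAlgebra O π 2 ![W₁, W₂] ![1, 1] ![1, q] := by
  letI : Algebra F E := φ.toAlgebra
  refine ⟨hπ, ?_, ?_, ⟨![t₁, t₂], fun i =>
    Fin.cases (motive := fun i => Fin (![1, q] i) → E) (fun _ => 1)
      (fun _ => fun j => z₀ ^ (j : ℕ)) i, ?_, ?_, ?_, ?_, ?_⟩, ?_⟩
  · intro i j hij
    fin_cases i <;> fin_cases j <;> simp_all
  · intro i
    fin_cases i
    · exact h₁
    · exact h₂
  · intro i; fin_cases i; exacts [ht₁, ht₂]
  · intro i; fin_cases i; exacts [ht₁0, ht₂0]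
  · intro i
    fin_cases i
    · change φ π / t₁ ^ 1 ∈ W₁
      rw [pow_one]; exact hu₁
    · change φ π / t₂ ^ 1 ∈ W₂
      rw [pow_one]; exact hu₂
  · intro i j
    fin_cases i
    · exact ValuationSubring.one_mem _
    · exact pow_mem hz₀ _
  · have hind0 : ∀ c : Fin 1 → F, (∀ j, c j ∈ O) →
        (∑ j, algebraMap F E (c j) * (1 : E)) ∈ W₁.nonunits → ∀ j, c j ∈ O.nonunits := by
      intro c hc hsumc j
      have hj : j = 0 := Subsingleton.elim _ _
      subst hj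
      have h3 : algebraMap F E (c 0) ∈ W₁.nonunits := by
        simpa using hsumc
      exact (algebraMap_mem_nonunits_iff_of_comap h₁ (c 0)).1 h3
    intro i
    refine Fin.cases ?_ (fun i' => ?_) i
    · exact hind0
    · have hi' : i' = 0 := Subsingleton.elim _ _
      subst hi'
      exact hind
  · simpa [Fin.sum_univ_two] using hsum

variable [CharZero F]

/-- **Mixed norm reduction**: `z ≡ φ a` at `W₁` and `z ^ q ≡ φ b` at `W₂` give
`N z ≡ a b` at `O`. -/
theorem normRed_mixed (φ : F →+* E)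
    (hfd : @FiniteDimensional F E _ _ (@Algebra.toModule F E _ _ φ.toAlgebra))
    (O : ValuationSubring F) (hO : IsPrincipalIdealRing O) (π : F)
    (W₁ W₂ : ValuationSubring E) (q : ℕ) (hq : q.Prime) (hqO : (q : F) ∈ O.nonunits)
    (h : @ExhaustHyp F E _ _ φ.toAlgebra O π 2 ![W₁, W₂] ![1, 1] ![1, q])
    (z : E) (a b : F) (ha : a ∈ O) (hb : b ∈ O)
    (hza : z - φ a ∈ W₁.nonunits) (hzb : z ^ q - φ b ∈ W₂.nonunits) :
    @Algebra.norm F E _ _ φ.toAlgebra z - a * b ∈ O.nonunits := by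
  letI : Algebra F E := φ.toAlgebra
  haveI := hfd
  haveI := hO
  have hc₁ : W₁.comap φ = O := h.comap 0
  -- `z ^ q ≡ φ (a ^ q)` at `W₁`
  have hφa : φ a ∈ W₁ := by
    have : a ∈ W₁.comap φ := by rw [hc₁]; exact ha
    exact this
  have hz₁ : z ∈ W₁ := by
    have : z = (z - φ a) + φ a := by ring
    rw [this]
    exact W₁.add_mem _ _ (mem_of_mem_nonunits W₁ hza) hφa
  have hzq : z ^ q - φ (a ^ q) ∈ W₁.nonunits := by
    rw [map_pow]
    obtain ⟨s, hs⟩ := sub_dvd_pow_sub_pow (⟨z, hz₁⟩ : W₁) ⟨φ a, hφa⟩ q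
    have hs' : z ^ q - φ a ^ q = (z - φ a) * (s : E) := by
      have := congrArg (Subtype.val) hs
      push_cast at this
      exact this
    rw [hs']
    exact mul_mem_nonunits W₁ hza s.2
  have key := h.normRed (z ^ q) ![a ^ q, b] (by intro i; fin_cases i; exacts [pow_mem ha q, hb])
    (by intro i; fin_cases i; exacts [hzq, hzb])
  have hprod : (∏ i : Fin 2, ![a ^ q, b] i ^ (![1, 1] i * ![1, q] i)) = (a * b) ^ q := by
    rw [Fin.prod_univ_two]
    simp [mul_pow]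
  rw [hprod, map_pow] at key
  exact sub_mem_nonunits_of_pow_sub_pow O q hq hqO _ _ (O.mul_mem _ _ ha hb) key

/-- **Mixed norm reduction, mapped to `W₁`**: if the residue degree of `W₁` over `O` is one,
`z ∈ W₁` and `z ^ q ≡ φ b` at `W₂` (`b ∈ O`), then `φ (N z) ≡ z · φ b` at `W₁`. -/
theorem normRed_mixed_map (φ : F →+* E)
    (hfd : @FiniteDimensional F E _ _ (@Algebra.toModule F E _ _ φ.toAlgebra))
    (O : ValuationSubring F) (hO : IsPrincipalIdealRing O) (π : F)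
    (W₁ W₂ : ValuationSubring E) (q : ℕ) (hq : q.Prime) (hqO : (q : F) ∈ O.nonunits)
    (h : @ExhaustHyp F E _ _ φ.toAlgebra O π 2 ![W₁, W₂] ![1, 1] ![1, q])
    (hres : ResOneAlong φ O W₁)
    (z : E) (hz₁ : z ∈ W₁) (b : F) (hb : b ∈ O) (hzb : z ^ q - φ b ∈ W₂.nonunits) :
    φ (@Algebra.norm F E _ _ φ.toAlgebra z) - z * φ b ∈ W₁.nonunits := by
  letI : Algebra F E := φ.toAlgebra
  obtain ⟨a, ha, hza⟩ := hres z hz₁
  have h1 := normRed_mixed φ hfd O hO π W₁ W₂ q hq hqO h z a b ha hb hza hzb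
  have hc₁ : W₁.comap φ = O := h.comap 0
  have hφb : φ b ∈ W₁ := by
    have : b ∈ W₁.comap φ := by rw [hc₁]; exact hb
    exact this
  have h2 : φ (@Algebra.norm F E _ _ φ.toAlgebra z - a * b) ∈ W₁.nonunits := by
    exact (algebraMap_mem_nonunits_iff_of_comap (K := F) (L := E) hc₁ _).2 h1
  have h3 : φ (@Algebra.norm F E _ _ φ.toAlgebra z) - z * φ b
      = φ (@Algebra.norm F E _ _ φ.toAlgebra z - a * b) - (z - φ a) * φ b := by
    rw [map_sub, map_mul]
    ring
  rw [h3, W₁.mem_nonunits_iff]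
  exact Valuation.map_sub_lt _ (W₁.mem_nonunits_iff.1 h2)
    (W₁.mem_nonunits_iff.1 (mul_mem_nonunits W₁ hza hφb))

end mixed

end Fermat.Agent.H68.SS2

end
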