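/-
P-SS2 (helper68): **norm reduction for constants**, Mathlib-only core.

`R` a local ring, `S` a Dedekind domain which is a finite free `R`-module, `P i` the primes of
`S` over the maximal ideal `𝔪` of `R`.  If `x ≡ c i mod P i` for all `i` (`c i ∈ R`), then

  `N_{S/R}(x) ≡ ∏ i, (c i) ^ (e_i f_i)  mod 𝔪`,

`e_i = (P i).ramificationIdx R`, `f_i = (P i).inertiaDeg R`.

Ingredients: reduction of the norm modulo `𝔪` (`norm_quotient_mk_eq`), the norm on a finite
product of algebras (`norm_pi_eq_prod`, via `det_blockDiagonal'_eq_prod`), the norm of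
`c + nilpotent` (`norm_eq_pow_of_isNilpotent_sub`), and the Chinese remainder theorem
`S ⧸ 𝔪 S ≃ ∏ S ⧸ P ^ e`.
-/
import Mathlib

set_option autoImplicit false
set_option linter.deprecated false
set_option linter.style.haveILetI false

noncomputable section

namespace Fermat.Agent.H68.SS2

open Module IsLocalRing UniqueFactorizationMonoid

section nilp

variable {k C : Type*} [CommRing k] [IsDomain k] [CommRing C] [Algebra k C] [Module.Free k C]
  [Module.Finite k C]

/-- the norm of `c + nilpotent` is `c ^ dim`. -/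
theorem norm_eq_pow_of_isNilpotent_sub (x : C) (c : k)
    (h : IsNilpotent (x - algebraMap k C c)) :
    Algebra.norm k x = c ^ finrank k C := by
  have h1 : IsNilpotent (Algebra.lmul k C (algebraMap k C c - x)) := by
    have : IsNilpotent (algebraMap k C c - x) := by
      rw [← neg_sub]; exact h.neg
    exact this.map (Algebra.lmul k C)
  have h2 := IsNilpotent.charpoly_eq_X_pow_finrank h1
  have h3 := LinearMap.eval_charpoly (Algebra.lmul k C (algebraMap k C c - x)) c
  rw [h2, Polynomial.eval_pow, Polynomial.eval_X] at h3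
  rw [h3, Algebra.norm_apply]
  congr 1
  ext y
  simp [Algebra.algebraMap_eq_smul_one]

end nilp

section blockdiag

variable {R : Type*} [CommRing R] {ι : Type*} [Fintype ι] [DecidableEq ι]
  {m' : ι → Type*} [∀ i, Fintype (m' i)] [∀ i, DecidableEq (m' i)]

/-- determinant of a block diagonal matrix with blocks of varying sizes -/
theorem det_blockDiagonal'_eq_prod (d : ∀ i, Matrix (m' i) (m' i) R) :
    (Matrix.blockDiagonal' d).det = ∏ i, (d i).det := by
  classical
  letI : LinearOrder ι := LinearOrder.lift' (Fintype.equivFin ι) (Equiv.injective _)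
  rw [(Matrix.blockTriangular_blockDiagonal' d).det]
  have hblock : ∀ a : ι,
      ((Matrix.blockDiagonal' d).toSquareBlock Sigma.fst a).det = (d a).det := by
    intro a
    have : (Matrix.blockDiagonal' d).toSquareBlock Sigma.fst a
        = Matrix.reindex (Equiv.sigmaSubtype a).symm (Equiv.sigmaSubtype a).symm (d a) := by
      ext ⟨⟨i, x⟩, hi⟩ ⟨⟨j, y⟩, hj⟩
      simp only at hi hj
      subst hi
      subst hj
      simp [Matrix.toSquareBlock_def, Matrix.blockDiagonal'_apply, Equiv.sigmaSubtype]
    rw [this, Matrix.det_reindex_self]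
  rw [Finset.prod_congr rfl (fun a _ => hblock a)]
  refine Finset.prod_subset (Finset.subset_univ _) (fun a _ ha => ?_)
  have hempty : IsEmpty (m' a) := by
    constructor
    intro x
    apply ha
    exact Finset.mem_image.2 ⟨⟨a, x⟩, Finset.mem_univ _, rfl⟩
  exact Matrix.det_isEmpty

end blockdiag

section pi

variable {k : Type*} [CommRing k] {ι : Type*} [Fintype ι] (C : ι → Type*)
  [∀ i, CommRing (C i)] [∀ i, Algebra k (C i)] [∀ i, Module.Free k (C i)]
  [∀ i, Module.Finite k (C i)]

/-- the norm on a finite product of algebras is the product of the norms. -/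
theorem norm_pi_eq_prod [Nontrivial k] (x : ∀ i, C i) :
    Algebra.norm k x = ∏ i, Algebra.norm k (x i) := by
  classical
  let b : ∀ i, Basis (Free.ChooseBasisIndex k (C i)) k (C i) := fun i => Free.chooseBasis k (C i)
  let B : Basis (Σ i, Free.ChooseBasisIndex k (C i)) k (∀ i, C i) := Pi.basis b
  rw [Algebra.norm_eq_matrix_det B]
  have h : Algebra.leftMulMatrix B x
      = Matrix.blockDiagonal' (fun i => Algebra.leftMulMatrix (b i) (x i)) := by
    ext ⟨i, a⟩ ⟨j, c⟩
    rw [Algebra.leftMulMatrix_eq_repr_mul, Matrix.blockDiagonal'_apply]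
    simp only [B, Pi.basis_repr, Pi.basis_apply]
    by_cases hij : i = j
    · subst hij
      simp [Algebra.leftMulMatrix_eq_repr_mul]
    · simp [hij]
  rw [h, det_blockDiagonal'_eq_prod]
  refine Finset.prod_congr rfl (fun i _ => ?_)
  rw [Algebra.norm_eq_matrix_det (b i)]

end pi

section quot

variable {R S : Type*} [CommRing R] [CommRing S] [Algebra R S] [IsLocalRing R]
  [Module.Free R S] [Module.Finite R S]

attribute [local instance] Ideal.Quotient.field

/-- reduction of the norm modulo the maximal ideal -/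
theorem norm_quotient_mk_eq (x : S) :
    Algebra.norm (R ⧸ maximalIdeal R)
      (Ideal.Quotient.mk ((maximalIdeal R).map (algebraMap R S)) x)
      = Ideal.Quotient.mk (maximalIdeal R) (Algebra.norm R x) := by
  classical
  let ι := Module.Free.ChooseBasisIndex R S
  let b : Module.Basis ι R S := Module.Free.chooseBasis R S
  rw [Algebra.norm_eq_matrix_det b, Algebra.norm_eq_matrix_det (basisQuotient b),
    RingHom.map_det]
  congr 1
  ext i j
  simp only [Algebra.leftMulMatrix_apply, Algebra.coe_lmul_eq_mul, LinearMap.toMatrix_apply,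
    basisQuotient_apply, LinearMap.mul_apply', RingHom.mapMatrix_apply, Matrix.map_apply,
    ← map_mul, basisQuotient_repr]

end quot

section dedekind

variable {R S : Type*} [CommRing R] [IsLocalRing R] [CommRing S] [IsDedekindDomain S]
  [Algebra R S] [Module.Free R S] [Module.Finite R S]

attribute [local instance] Ideal.Quotient.field

/-- norm reduction over the factors of `𝔪 S` (old ramification API). -/
theorem norm_quotient_eq_prod_factors
    (hp : (maximalIdeal R).map (algebraMap R S) ≠ ⊥) (x : S) (c : Ideal S → R)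
    (hc : ∀ P ∈ (factors ((maximalIdeal R).map (algebraMap R S))).toFinset,
      x - algebraMap R S (c P) ∈ P) :
    Ideal.Quotient.mk (maximalIdeal R) (Algebra.norm R x)
      = ∏ P : (factors ((maximalIdeal R).map (algebraMap R S))).toFinset,
          (Ideal.Quotient.mk (maximalIdeal R) (c P)) ^
            (Ideal.ramificationIdx' (maximalIdeal R) (P : Ideal S)
              * Ideal.inertiaDeg' (maximalIdeal R) (P : Ideal S)) := by
  classical
  rw [← norm_quotient_mk_eq]
  let e : (S ⧸ (maximalIdeal R).map (algebraMap R S)) ≃ₐ[R ⧸ maximalIdeal R]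
      (∀ P : (factors ((maximalIdeal R).map (algebraMap R S))).toFinset,
        S ⧸ (P : Ideal S) ^ Ideal.ramificationIdx' (maximalIdeal R) (P : Ideal S)) :=
    AlgEquiv.ofRingEquiv (f := Ideal.Factors.piQuotientEquiv (maximalIdeal R) hp) (by
      intro r
      obtain ⟨r, rfl⟩ := Ideal.Quotient.mk_surjective r
      rfl)
  rw [← Algebra.norm_eq_of_algEquiv e, norm_pi_eq_prod]
  refine Finset.prod_congr rfl (fun P _ => ?_)
  have h1 : e (Ideal.Quotient.mk ((maximalIdeal R).map (algebraMap R S)) x) P
      = Ideal.Quotient.mk _ x := rfl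
  rw [h1, norm_eq_pow_of_isNilpotent_sub _ (Ideal.Quotient.mk (maximalIdeal R) (c P)),
    Ideal.Factors.finrank_pow_ramificationIdx]
  refine ⟨Ideal.ramificationIdx' (maximalIdeal R) (P : Ideal S), ?_⟩
  have h2 : (Ideal.Quotient.mk ((P : Ideal S) ^
        Ideal.ramificationIdx' (maximalIdeal R) (P : Ideal S)) x
      - algebraMap (R ⧸ maximalIdeal R) _ (Ideal.Quotient.mk (maximalIdeal R) (c P)))
      = Ideal.Quotient.mk _ (x - algebraMap R S (c P)) := by
    rw [map_sub]; rfl
  rw [h2, ← map_pow, Ideal.Quotient.eq_zero_iff_mem]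
  exact Ideal.pow_mem_pow (hc P P.2) _

/-- **Norm reduction for constants**, Dedekind form: `R` local, `S` a Dedekind domain, finite
and free over `R`, `P i` the primes of `S` over `𝔪`; if `x ≡ c i mod P i` for all `i` then
`N_{S/R}(x) ≡ ∏ (c i) ^ (e_i f_i) mod 𝔪`. -/
theorem normRed_dedekind
    (hp : (maximalIdeal R).map (algebraMap R S) ≠ ⊥) {ι : Type*} [Fintype ι]
    (P : ι → Ideal S) (hinj : Function.Injective P) (hprime : ∀ i, (P i).IsPrime)
    (hover : ∀ i, (P i).LiesOver (maximalIdeal R))
    (hall : ∀ q : Ideal S, q.IsPrime → q.LiesOver (maximalIdeal R) → ∃ i, q = P i)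
    (x : S) (c : ι → R) (hc : ∀ i, x - algebraMap R S (c i) ∈ P i) :
    Algebra.norm R x - ∏ i, c i ^ ((P i).ramificationIdx R * (P i).inertiaDeg R)
      ∈ maximalIdeal R := by
  classical
  -- membership in the factors
  have hmem : ∀ q : Ideal S, q ∈ (factors ((maximalIdeal R).map (algebraMap R S))).toFinset ↔
      q.IsPrime ∧ q.LiesOver (maximalIdeal R) := by
    intro q
    rw [Multiset.mem_toFinset, factors_eq_normalizedFactors, Ideal.mem_normalizedFactors_iff hp]
    constructor
    · rintro ⟨h1, h2⟩
      refine ⟨h1, ⟨?_⟩⟩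
      have h3 : maximalIdeal R ≤ q.comap (algebraMap R S) := Ideal.map_le_iff_le_comap.1 h2
      have h4 : (q.comap (algebraMap R S)) ≠ ⊤ := (Ideal.comap_ne_top _ h1.ne_top)
      exact ((maximalIdeal.isMaximal R).eq_of_le h4 h3)
    · rintro ⟨h1, h2⟩
      refine ⟨h1, ?_⟩
      rw [Ideal.map_le_iff_le_comap]
      exact h2.over.le
  let c' : Ideal S → R := fun Q => if h : ∃ i, Q = P i then c h.choose else 0
  have hc' : ∀ i, c' (P i) = c i := by
    intro i
    have h : ∃ j, P i = P j := ⟨i, rfl⟩
    simp only [c', dif_pos h]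
    congr 1
    exact (hinj h.choose_spec).symm
  have key := norm_quotient_eq_prod_factors hp x c' (by
    intro Q hQ
    obtain ⟨i, rfl⟩ := hall Q ((hmem Q).1 hQ).1 ((hmem Q).1 hQ).2
    rw [hc']
    exact hc i)
  rw [← Ideal.Quotient.eq, key, map_prod]
  let g : ι → (factors ((maximalIdeal R).map (algebraMap R S))).toFinset :=
    fun i => ⟨P i, (hmem _).2 ⟨hprime i, hover i⟩⟩
  have hg : Function.Bijective g := by
    constructor
    · intro i j hij
      exact hinj (congrArg Subtype.val hij)
    · rintro ⟨Q, hQ⟩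
      obtain ⟨i, rfl⟩ := hall Q ((hmem Q).1 hQ).1 ((hmem Q).1 hQ).2
      exact ⟨i, rfl⟩
  rw [← hg.prod_comp]
  refine Finset.prod_congr rfl (fun i _ => ?_)
  haveI := hprime i
  haveI := hover i
  have hq0 : P i ≠ ⊥ := by
    intro h
    apply hp
    rw [eq_bot_iff, ← h, Ideal.map_le_iff_le_comap]
    exact (hover i).over.le
  haveI : (P i).IsMaximal := (hprime i).isMaximal hq0
  show (Ideal.Quotient.mk (maximalIdeal R) (c' (P i))) ^
      (Ideal.ramificationIdx' (maximalIdeal R) (P i) * Ideal.inertiaDeg' (maximalIdeal R) (P i))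
    = _
  rw [hc', map_pow, Ideal.ramificationIdx'_eq_ramificationIdx' (maximalIdeal R) (P i) hp,
    Ideal.inertiaDeg'_eq_inertiaDeg (maximalIdeal R) (P i)]

end dedekind

end Fermat.Agent.H68.SS2

end
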