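/-
P-SS2 (helper68): **TORIC on the keystone interface** `Fermat.Agent.H11.SS2.Val3Data`:
the two relations between the roots of unity of a local principalisation at a triple point,

  `ωα₁₀ · c₂₀ · c₁₁^(q-1) = ωα₀₁ · c₀₂^q`      (norm along `α`),
  `ωβ₁₀ · c₂₀^q = ωβ₀₁ · c₁₁^(q-1) · c₀₂`      (norm along `β`).
-/
import Fermat.Agent.H68.SS2.Toric
import Fermat.Agent.H68.SS2.NormRedVal3

set_option autoImplicit false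
set_option linter.style.haveILetI false
set_option linter.unusedSectionVars false

noncomputable section

namespace Fermat.Agent.H68.SS2

open Fermat.Agent.H11.SS2 Fermat.Agent.H22.KL

section val3

variable (A : Type) [CommRing A] [IsDomain A] {F E : Type} [Field F] [Field E] [CharZero F]
  [Algebra A F] [Algebra A E]

/-- **TORIC along one embedding** `φ : F → E`, with the branches `Wa` above `Va'` and `Wb`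
above `Vb'` (a restatement of `toric` for a ring homomorphism instead of an algebra
structure). -/
theorem toric_along (φ : F →+* E) (hφA : ∀ a, φ (algebraMap A F a) = algebraMap A E a)
    (hfd : @FiniteDimensional F E _ _ (@Algebra.toModule F E _ _ φ.toAlgebra))
    (y : F) (x : E) (hx : φ y = x)
    (𝔪' : Ideal (chartClosure A F y)) (h𝔪' : 𝔪'.IsMaximal)
    (𝔪 : Ideal (chartClosure A E x))
    (honly : @OnlyAbove A _ F E _ _ _ _ φ.toAlgebra y 𝔪' x 𝔪)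
    (n : ℕ) (hn : 0 < n) (hnu : IsUnit ((n : ℕ) : A))
    (Va' Vb' : ValuationSubring F)
    (hVa : ∀ s ∈ chartClosure A F y, s ∈ Va') (hVb : ∀ s ∈ chartClosure A F y, s ∈ Vb')
    (hTa : Through A F y 𝔪' Va') (hTb : Through A F y 𝔪' Vb')
    (ιa ιb : Type) [Fintype ιa] [Fintype ιb]
    (Wa : ιa → ValuationSubring E) (ea : ιa → ℕ)
    (Wb : ιb → ValuationSubring E) (eb : ιb → ℕ)
    (hNa : @NormRedConstAt A _ F E _ _ _ _ φ.toAlgebra ιa _ Va' Wa ea)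
    (hNb : @NormRedConstAt A _ F E _ _ _ _ φ.toAlgebra ιb _ Vb' Wb eb)
    (Hinv u : E) (ca : ιa → A) (cb : ιb → A)
    (hca : ∀ i, ca i ^ n = 1 ∧ Hinv - algebraMap A E (ca i) ∈ (Wa i).nonunits)
    (hcb : ∀ i, cb i ^ n = 1 ∧ Hinv - algebraMap A E (cb i) ∈ (Wb i).nonunits)
    (hloc : InLoc A E x 𝔪 (u * Hinv ^ n))
    (h : F) (p wa wb : A) (hp : IsUnit p)
    (hh : algebraMap A F p * h ^ n = @Algebra.norm F E _ _ φ.toAlgebra u)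
    (hwa : wa ^ n = 1) (hwb : wb ^ n = 1)
    (hha : h - algebraMap A F wa ∈ Va'.nonunits) (hhb : h - algebraMap A F wb ∈ Vb'.nonunits) :
    wa * ∏ i, ca i ^ ea i = wb * ∏ i, cb i ^ eb i := by
  letI : Algebra F E := φ.toAlgebra
  haveI : IsScalarTower A F E := IsScalarTower.of_algebraMap_eq (fun a => (hφA a).symm)
  haveI := hfd
  exact toric A F E y x hx 𝔪' h𝔪' 𝔪 honly n hn hnu Va' Vb' hVa hVb hTa hTb ιa ιb Wa ea Wb eb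
    hNa hNb Hinv u ca cb hca hcb hloc h p wa wb hp hh hwa hwb hha hhb

/-- **The two TORIC relations at a triple point**, on `Val3Data`. -/
theorem toric_val3 (α β : F →+* E)
    (hαA : ∀ a, α (algebraMap A F a) = algebraMap A E a)
    (hβA : ∀ a, β (algebraMap A F a) = algebraMap A E a)
    (O₁ O₂ : ValuationSubring F) (hO₁ : IsPrincipalIdealRing O₁) (hO₂ : IsPrincipalIdealRing O₂)
    (hA₁ : ∀ a, algebraMap A F a ∈ O₁) (hA₂ : ∀ a, algebraMap A F a ∈ O₂)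
    (V₂₀ V₁₁ V₀₂ : ValuationSubring E) (q : ℕ) (hq : 0 < q) (Y₁ : F) (Z : E)
    (hu₁ : DKUnif O₁ (q : F)) (hu₂ : DKUnif O₂ (q : F))
    (hdα : @FiniteDimensional F E _ _ (@Algebra.toModule F E _ _ α.toAlgebra) ∧
      @Module.finrank F E _ _ (@Algebra.toModule F E _ _ α.toAlgebra) = q)
    (hdβ : @FiniteDimensional F E _ _ (@Algebra.toModule F E _ _ β.toAlgebra) ∧
      @Module.finrank F E _ _ (@Algebra.toModule F E _ _ β.toAlgebra) = q)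
    (hV : Val3Data α β O₁ O₂ V₂₀ V₁₁ V₀₂ q Y₁ Z)
    -- the chart and the point
    (x : E) (𝔪 : Ideal (chartClosure A E x))
    (n : ℕ) (hn : 0 < n) (hnu : IsUnit ((n : ℕ) : A))
    -- the points below, along `α` and along `β`
    (yα : F) (hxα : α yα = x) (𝔪α : Ideal (chartClosure A F yα)) (h𝔪α : 𝔪α.IsMaximal)
    (honlyα : @OnlyAbove A _ F E _ _ _ _ α.toAlgebra yα 𝔪α x 𝔪)
    (hBα₁ : ∀ s ∈ chartClosure A F yα, s ∈ O₁) (hBα₂ : ∀ s ∈ chartClosure A F yα, s ∈ O₂)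
    (hTα₁ : Through A F yα 𝔪α O₁) (hTα₂ : Through A F yα 𝔪α O₂)
    (yβ : F) (hxβ : β yβ = x) (𝔪β : Ideal (chartClosure A F yβ)) (h𝔪β : 𝔪β.IsMaximal)
    (honlyβ : @OnlyAbove A _ F E _ _ _ _ β.toAlgebra yβ 𝔪β x 𝔪)
    (hBβ₁ : ∀ s ∈ chartClosure A F yβ, s ∈ O₁) (hBβ₂ : ∀ s ∈ chartClosure A F yβ, s ∈ O₂)
    (hTβ₁ : Through A F yβ 𝔪β O₁) (hTβ₂ : Through A F yβ 𝔪β O₂)
    -- the local principalisation with roots of unity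
    (Hinv u : E) (c₂₀ c₁₁ c₀₂ : A) (h₂₀ : c₂₀ ^ n = 1) (h₁₁ : c₁₁ ^ n = 1) (h₀₂ : c₀₂ ^ n = 1)
    (hc₂₀ : Hinv - algebraMap A E c₂₀ ∈ V₂₀.nonunits)
    (hc₁₁ : Hinv - algebraMap A E c₁₁ ∈ V₁₁.nonunits)
    (hc₀₂ : Hinv - algebraMap A E c₀₂ ∈ V₀₂.nonunits)
    (hloc : InLoc A E x 𝔪 (u * Hinv ^ n))
    -- the two norms
    (hα : F) (pα ωα₁₀ ωα₀₁ : A) (hpα : IsUnit pα)
    (hNα : algebraMap A F pα * hα ^ n = @Algebra.norm F E _ _ α.toAlgebra u)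
    (hωα₁₀ : ωα₁₀ ^ n = 1) (hωα₀₁ : ωα₀₁ ^ n = 1)
    (hhα₁ : hα - algebraMap A F ωα₁₀ ∈ O₁.nonunits)
    (hhα₂ : hα - algebraMap A F ωα₀₁ ∈ O₂.nonunits)
    (hβ : F) (pβ ωβ₁₀ ωβ₀₁ : A) (hpβ : IsUnit pβ)
    (hNβ : algebraMap A F pβ * hβ ^ n = @Algebra.norm F E _ _ β.toAlgebra u)
    (hωβ₁₀ : ωβ₁₀ ^ n = 1) (hωβ₀₁ : ωβ₀₁ ^ n = 1)
    (hhβ₁ : hβ - algebraMap A F ωβ₁₀ ∈ O₁.nonunits)
    (hhβ₂ : hβ - algebraMap A F ωβ₀₁ ∈ O₂.nonunits) :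
    ωα₁₀ * (c₂₀ * c₁₁ ^ (q - 1)) = ωα₀₁ * c₀₂ ^ q ∧
      ωβ₁₀ * c₂₀ ^ q = ωβ₀₁ * (c₁₁ ^ (q - 1) * c₀₂) := by
  obtain ⟨N1, N2, N3, N4⟩ := normRedConstAt_val3 A α β hαA hβA O₁ O₂ hO₁ hO₂ hA₁ hA₂
    V₂₀ V₁₁ V₀₂ q hq Y₁ Z hu₁ hu₂ hdα hdβ hV
  constructor
  · have key := toric_along A α hαA hdα.1 yα x hxα 𝔪α h𝔪α 𝔪 honlyα n hn hnu O₁ O₂ hBα₁ hBα₂
      hTα₁ hTα₂ (Fin 2) (Fin 1) ![V₂₀, V₁₁] ![1, q - 1] ![V₀₂] ![q] N1 N2 Hinv u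
      ![c₂₀, c₁₁] ![c₀₂]
      (by intro i; fin_cases i; exacts [⟨h₂₀, hc₂₀⟩, ⟨h₁₁, hc₁₁⟩])
      (by intro i; fin_cases i; exact ⟨h₀₂, hc₀₂⟩)
      hloc hα pα ωα₁₀ ωα₀₁ hpα hNα hωα₁₀ hωα₀₁ hhα₁ hhα₂
    simpa [Fin.prod_univ_two] using key
  · have key := toric_along A β hβA hdβ.1 yβ x hxβ 𝔪β h𝔪β 𝔪 honlyβ n hn hnu O₁ O₂ hBβ₁ hBβ₂
      hTβ₁ hTβ₂ (Fin 1) (Fin 2) ![V₂₀] ![q] ![V₁₁, V₀₂] ![q - 1, 1] N3 N4 Hinv u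
      ![c₂₀] ![c₁₁, c₀₂]
      (by intro i; fin_cases i; exact ⟨h₂₀, hc₂₀⟩)
      (by intro i; fin_cases i; exacts [⟨h₁₁, hc₁₁⟩, ⟨h₀₂, hc₀₂⟩])
      hloc hβ pβ ωβ₁₀ ωβ₀₁ hpβ hNβ hωβ₁₀ hωβ₀₁ hhβ₁ hhβ₂
    simpa [Fin.prod_univ_two] using key

/-- `wa X = wb Y` with `wa ^ n = 1` gives `X = (wb wa^(n-1)) Y`. -/
theorem eq_mul_of_root_mul_eq {R : Type} [CommRing R] {n : ℕ} (hn : 0 < n) {wa wb X Y : R}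
    (hwa : wa ^ n = 1) (h : wa * X = wb * Y) : X = wb * wa ^ (n - 1) * Y := by
  have h1 : wa ^ (n - 1) * wa = 1 := by
    rw [← pow_succ, Nat.sub_add_cancel hn, hwa]
  calc X = wa ^ (n - 1) * wa * X := by rw [h1, one_mul]
    _ = wa ^ (n - 1) * (wa * X) := by ring
    _ = wa ^ (n - 1) * (wb * Y) := by rw [h]
    _ = wb * wa ^ (n - 1) * Y := by ring

/-- **The two TORIC relations in the form of `Fermat.Agent.H19.SS2.KcThree`**: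
`c₂₀ c₁₁^(q-1) = w c₀₂^q` and `c₂₀^q = w' c₁₁^(q-1) c₀₂` with
`w = ωα₀₁ ωα₁₀^(n-1)`, `w' = ωβ₀₁ ωβ₁₀^(n-1)` (independent of the point). -/
theorem toric_val3_kc (α β : F →+* E)
    (hαA : ∀ a, α (algebraMap A F a) = algebraMap A E a)
    (hβA : ∀ a, β (algebraMap A F a) = algebraMap A E a)
    (O₁ O₂ : ValuationSubring F) (hO₁ : IsPrincipalIdealRing O₁) (hO₂ : IsPrincipalIdealRing O₂)
    (hA₁ : ∀ a, algebraMap A F a ∈ O₁) (hA₂ : ∀ a, algebraMap A F a ∈ O₂)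
    (V₂₀ V₁₁ V₀₂ : ValuationSubring E) (q : ℕ) (hq : 0 < q) (Y₁ : F) (Z : E)
    (hu₁ : DKUnif O₁ (q : F)) (hu₂ : DKUnif O₂ (q : F))
    (hdα : @FiniteDimensional F E _ _ (@Algebra.toModule F E _ _ α.toAlgebra) ∧
      @Module.finrank F E _ _ (@Algebra.toModule F E _ _ α.toAlgebra) = q)
    (hdβ : @FiniteDimensional F E _ _ (@Algebra.toModule F E _ _ β.toAlgebra) ∧
      @Module.finrank F E _ _ (@Algebra.toModule F E _ _ β.toAlgebra) = q)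
    (hV : Val3Data α β O₁ O₂ V₂₀ V₁₁ V₀₂ q Y₁ Z)
    (x : E) (𝔪 : Ideal (chartClosure A E x))
    (n : ℕ) (hn : 0 < n) (hnu : IsUnit ((n : ℕ) : A))
    (yα : F) (hxα : α yα = x) (𝔪α : Ideal (chartClosure A F yα)) (h𝔪α : 𝔪α.IsMaximal)
    (honlyα : @OnlyAbove A _ F E _ _ _ _ α.toAlgebra yα 𝔪α x 𝔪)
    (hBα₁ : ∀ s ∈ chartClosure A F yα, s ∈ O₁) (hBα₂ : ∀ s ∈ chartClosure A F yα, s ∈ O₂)
    (hTα₁ : Through A F yα 𝔪α O₁) (hTα₂ : Through A F yα 𝔪α O₂)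
    (yβ : F) (hxβ : β yβ = x) (𝔪β : Ideal (chartClosure A F yβ)) (h𝔪β : 𝔪β.IsMaximal)
    (honlyβ : @OnlyAbove A _ F E _ _ _ _ β.toAlgebra yβ 𝔪β x 𝔪)
    (hBβ₁ : ∀ s ∈ chartClosure A F yβ, s ∈ O₁) (hBβ₂ : ∀ s ∈ chartClosure A F yβ, s ∈ O₂)
    (hTβ₁ : Through A F yβ 𝔪β O₁) (hTβ₂ : Through A F yβ 𝔪β O₂)
    (Hinv u : E) (c₂₀ c₁₁ c₀₂ : A) (h₂₀ : c₂₀ ^ n = 1) (h₁₁ : c₁₁ ^ n = 1) (h₀₂ : c₀₂ ^ n = 1)
    (hc₂₀ : Hinv - algebraMap A E c₂₀ ∈ V₂₀.nonunits)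
    (hc₁₁ : Hinv - algebraMap A E c₁₁ ∈ V₁₁.nonunits)
    (hc₀₂ : Hinv - algebraMap A E c₀₂ ∈ V₀₂.nonunits)
    (hloc : InLoc A E x 𝔪 (u * Hinv ^ n))
    (hα : F) (pα ωα₁₀ ωα₀₁ : A) (hpα : IsUnit pα)
    (hNα : algebraMap A F pα * hα ^ n = @Algebra.norm F E _ _ α.toAlgebra u)
    (hωα₁₀ : ωα₁₀ ^ n = 1) (hωα₀₁ : ωα₀₁ ^ n = 1)
    (hhα₁ : hα - algebraMap A F ωα₁₀ ∈ O₁.nonunits)
    (hhα₂ : hα - algebraMap A F ωα₀₁ ∈ O₂.nonunits)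
    (hβ : F) (pβ ωβ₁₀ ωβ₀₁ : A) (hpβ : IsUnit pβ)
    (hNβ : algebraMap A F pβ * hβ ^ n = @Algebra.norm F E _ _ β.toAlgebra u)
    (hωβ₁₀ : ωβ₁₀ ^ n = 1) (hωβ₀₁ : ωβ₀₁ ^ n = 1)
    (hhβ₁ : hβ - algebraMap A F ωβ₁₀ ∈ O₁.nonunits)
    (hhβ₂ : hβ - algebraMap A F ωβ₀₁ ∈ O₂.nonunits) :
    c₂₀ * c₁₁ ^ (q - 1) = (ωα₀₁ * ωα₁₀ ^ (n - 1)) * c₀₂ ^ q ∧
      c₂₀ ^ q = (ωβ₀₁ * ωβ₁₀ ^ (n - 1)) * c₁₁ ^ (q - 1) * c₀₂ := by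
  obtain ⟨r1, r2⟩ := toric_val3 A α β hαA hβA O₁ O₂ hO₁ hO₂ hA₁ hA₂ V₂₀ V₁₁ V₀₂ q hq Y₁ Z
    hu₁ hu₂ hdα hdβ hV x 𝔪 n hn hnu yα hxα 𝔪α h𝔪α honlyα hBα₁ hBα₂ hTα₁ hTα₂
    yβ hxβ 𝔪β h𝔪β honlyβ hBβ₁ hBβ₂ hTβ₁ hTβ₂ Hinv u c₂₀ c₁₁ c₀₂ h₂₀ h₁₁ h₀₂ hc₂₀ hc₁₁ hc₀₂
    hloc hα pα ωα₁₀ ωα₀₁ hpα hNα hωα₁₀ hωα₀₁ hhα₁ hhα₂ hβ pβ ωβ₁₀ ωβ₀₁ hpβ hNβ hωβ₁₀ hωβ₀₁
    hhβ₁ hhβ₂
  refine ⟨eq_mul_of_root_mul_eq hn hωα₁₀ r1, ?_⟩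
  have := eq_mul_of_root_mul_eq hn hωβ₁₀ r2
  rw [this]
  ring

end val3

end Fermat.Agent.H68.SS2

end
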