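/-
P-SS2 (helper68): **TORIC for a general upper chart** (misfit (M2) of ASM-CORE, row 1058).

`toric` (row 894) is stated for the upper chart `x = algebraMap E₀' E₀ y`.  Here the upper chart
`x0` is arbitrary, with the hypothesis that the two chart rings agree,

  `chartClosure A E₀ (algebraMap E₀' E₀ y) = chartClosure A E₀ x0`

(e.g. `y = j`, along `β`: `β j = j_q` and `x0 = j`).

* `toricGen`          : algebra form;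
* `toricGen_along`    : ring-homomorphism form;
* `toricGen_val3`     : the two relations at a triple point, on `Val3Data`;
* `toricGen_val3_kc`  : the same in the form of `Fermat.Agent.H19.SS2.KcThree`.
-/
import Fermat.Agent.H68.SS2.ToricVal3

set_option autoImplicit false
set_option linter.style.haveILetI false
set_option linter.unusedSectionVars false

noncomputable section

namespace Fermat.Agent.H68.SS2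

open Fermat.Agent.H11.SS2 Fermat.Agent.H22.KL

/-- **TORIC, general upper chart** (algebra form). -/
theorem toricGen (A : Type) [CommRing A] [IsDomain A]
    (E₀' E₀ : Type) [Field E₀'] [Field E₀] [Algebra A E₀'] [Algebra A E₀] [Algebra E₀' E₀]
    [IsScalarTower A E₀' E₀] [FiniteDimensional E₀' E₀]
    (y : E₀') (x0 : E₀)
    (hch : chartClosure A E₀ (algebraMap E₀' E₀ y) = chartClosure A E₀ x0)
    (𝔪' : Ideal (chartClosure A E₀' y)) (h𝔪' : 𝔪'.IsMaximal)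
    (𝔪 : Ideal (chartClosure A E₀ x0)) (honly : OnlyAbove A E₀' E₀ y 𝔪' x0 𝔪)
    (n : ℕ) (hn : 0 < n) (hnu : IsUnit ((n : ℕ) : A))
    (Va' Vb' : ValuationSubring E₀')
    (hVa : ∀ s ∈ chartClosure A E₀' y, s ∈ Va') (hVb : ∀ s ∈ chartClosure A E₀' y, s ∈ Vb')
    (hTa : Through A E₀' y 𝔪' Va') (hTb : Through A E₀' y 𝔪' Vb')
    (ιa ιb : Type) [Fintype ιa] [Fintype ιb]
    (Wa : ιa → ValuationSubring E₀) (ea : ιa → ℕ)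
    (Wb : ιb → ValuationSubring E₀) (eb : ιb → ℕ)
    (hNa : NormRedConstAt A E₀' E₀ Va' Wa ea) (hNb : NormRedConstAt A E₀' E₀ Vb' Wb eb)
    (Hinv u : E₀) (ca : ιa → A) (cb : ιb → A)
    (hca : ∀ i, ca i ^ n = 1 ∧ Hinv - algebraMap A E₀ (ca i) ∈ (Wa i).nonunits)
    (hcb : ∀ i, cb i ^ n = 1 ∧ Hinv - algebraMap A E₀ (cb i) ∈ (Wb i).nonunits)
    (hloc : InLoc A E₀ x0 𝔪 (u * Hinv ^ n))
    (h : E₀') (p wa wb : A) (hp : IsUnit p)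
    (hh : algebraMap A E₀' p * h ^ n = Algebra.norm E₀' u)
    (hwa : wa ^ n = 1) (hwb : wb ^ n = 1)
    (hha : h - algebraMap A E₀' wa ∈ Va'.nonunits)
    (hhb : h - algebraMap A E₀' wb ∈ Vb'.nonunits) :
    wa * ∏ i, ca i ^ ea i = wb * ∏ i, cb i ^ eb i := by
  -- generalise the upper chart ring
  have key : ∀ (B : Subalgebra A E₀) (_ : chartClosure A E₀ (algebraMap E₀' E₀ y) = B)
      (𝔫 : Ideal B),
      (∀ 𝔫' : Ideal B, 𝔫'.IsMaximal →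
        (∀ s : chartClosure A E₀' y, s ∈ 𝔪' →
          ∀ t : B, (t : E₀) = algebraMap E₀' E₀ s → t ∈ 𝔫') → 𝔫' = 𝔫) →
      (∃ b : B, b ∉ 𝔫 ∧ (b : E₀) * (u * Hinv ^ n) ∈ B) →
      wa * ∏ i, ca i ^ ea i = wb * ∏ i, cb i ^ eb i := by
    intro B hB
    subst hB
    intro 𝔫 h1 h2
    exact toric A E₀' E₀ y _ rfl 𝔪' h𝔪' 𝔫 h1 n hn hnu Va' Vb' hVa hVb hTa hTb ιa ιb Wa ea Wb eb
      hNa hNb Hinv u ca cb hca hcb h2 h p wa wb hp hh hwa hwb hha hhb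
  exact key _ hch 𝔪 honly hloc

section val3

variable (A : Type) [CommRing A] [IsDomain A] {F E : Type} [Field F] [Field E] [CharZero F]
  [Algebra A F] [Algebra A E]

/-- **TORIC along one embedding** `φ : F → E`, general upper chart. -/
theorem toricGen_along (φ : F →+* E) (hφA : ∀ a, φ (algebraMap A F a) = algebraMap A E a)
    (hfd : @FiniteDimensional F E _ _ (@Algebra.toModule F E _ _ φ.toAlgebra))
    (y : F) (x0 : E) (hch : chartClosure A E (φ y) = chartClosure A E x0)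
    (𝔪' : Ideal (chartClosure A F y)) (h𝔪' : 𝔪'.IsMaximal)
    (𝔪 : Ideal (chartClosure A E x0))
    (honly : @OnlyAbove A _ F E _ _ _ _ φ.toAlgebra y 𝔪' x0 𝔪)
    (n : ℕ) (hn : 0 < n) (hnu : IsUnit ((n : ℕ) : A))
    (Va' Vb' : ValuationSubring F)
    (hVa : ∀ s ∈ chartClosure A F y, s ∈ Va') (hVb : ∀ s ∈ chartClosure A F y, s ∈ Vb')
    (hTa : Through A F y 𝔪' Va') (hTb : Through A F y 𝔪' Vb')
    (ιa ιb : Type) [Fintype ιa] [Fintype ιb]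
    (Wa : ιa → ValuationSubring E) (ea : ιa → ℕ)
    (Wb : ιb → ValuationSubring E) (eb : ιb → ℕ)
    (hNa : @NormRedConstAt A _ F E _ _ _ _ φ.toAlgebra ιa _ Va' Wa ea)
    (hNb : @NormRedConstAt A _ F E _ _ _ _ φ.toAlgebra ιb _ Vb' Wb eb)
    (Hinv u : E) (ca : ιa → A) (cb : ιb → A)
    (hca : ∀ i, ca i ^ n = 1 ∧ Hinv - algebraMap A E (ca i) ∈ (Wa i).nonunits)
    (hcb : ∀ i, cb i ^ n = 1 ∧ Hinv - algebraMap A E (cb i) ∈ (Wb i).nonunits)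
    (hloc : InLoc A E x0 𝔪 (u * Hinv ^ n))
    (h : F) (p wa wb : A) (hp : IsUnit p)
    (hh : algebraMap A F p * h ^ n = @Algebra.norm F E _ _ φ.toAlgebra u)
    (hwa : wa ^ n = 1) (hwb : wb ^ n = 1)
    (hha : h - algebraMap A F wa ∈ Va'.nonunits) (hhb : h - algebraMap A F wb ∈ Vb'.nonunits) :
    wa * ∏ i, ca i ^ ea i = wb * ∏ i, cb i ^ eb i := by
  letI : Algebra F E := φ.toAlgebra
  haveI : IsScalarTower A F E := IsScalarTower.of_algebraMap_eq (fun a => (hφA a).symm)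
  haveI := hfd
  exact toricGen A F E y x0 hch 𝔪' h𝔪' 𝔪 honly n hn hnu Va' Vb' hVa hVb hTa hTb ιa ιb Wa ea
    Wb eb hNa hNb Hinv u ca cb hca hcb hloc h p wa wb hp hh hwa hwb hha hhb

/-- **The two TORIC relations at a triple point**, on `Val3Data`, general upper chart `x`:
the chart rings of `α yα` and of `β yβ` both agree with the chart ring of `x`. -/
theorem toricGen_val3 (α β : F →+* E)
    (hαA : ∀ a, α (algebraMap A F a) = algebraMap A E a)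
    (hβA : ∀ a, β (algebraMap A F a) = algebraMap A E a)
    (O₁ O₂ : ValuationSubring F) (hO₁ : IsPrincipalIdealRing O₁) (hO₂ : IsPrincipalIdealRing O₂)
    (hA₁ : ∀ a, algebraMap A F a ∈ O₁) (hA₂ : ∀ a, algebraMap A F a ∈ O₂)
    (V₂₀ V₁₁ V₀₂ : ValuationSubring E) (q : ℕ) (hq : 0 < q) (Y₁ : F) (Z : E)
    (hu₁ : DKUnif O₁ (q : F)) (hu₂ : DKUnif O₂ (q : F))
    (hdα : @FiniteDimensional F E _ _ (@Algebra.toModule F E _ _ α.toAlgebra) ∧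
      @Module.finrank F E _ _ (@Algebra.toModule F E _ _ α.toAlgebra) = q)
    (hdβ : @FiniteDimensional F E _ _ (@Algebra.toModule F E _ _ β.toAlgebra) ∧
      @Module.finrank F E _ _ (@Algebra.toModule F E _ _ β.toAlgebra) = q)
    (hV : Val3Data α β O₁ O₂ V₂₀ V₁₁ V₀₂ q Y₁ Z)
    -- the chart and the point
    (x : E) (𝔪 : Ideal (chartClosure A E x))
    (n : ℕ) (hn : 0 < n) (hnu : IsUnit ((n : ℕ) : A))
    -- the points below, along `α` and along `β`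
    (yα : F) (hchα : chartClosure A E (α yα) = chartClosure A E x)
    (𝔪α : Ideal (chartClosure A F yα)) (h𝔪α : 𝔪α.IsMaximal)
    (honlyα : @OnlyAbove A _ F E _ _ _ _ α.toAlgebra yα 𝔪α x 𝔪)
    (hBα₁ : ∀ s ∈ chartClosure A F yα, s ∈ O₁) (hBα₂ : ∀ s ∈ chartClosure A F yα, s ∈ O₂)
    (hTα₁ : Through A F yα 𝔪α O₁) (hTα₂ : Through A F yα 𝔪α O₂)
    (yβ : F) (hchβ : chartClosure A E (β yβ) = chartClosure A E x)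
    (𝔪β : Ideal (chartClosure A F yβ)) (h𝔪β : 𝔪β.IsMaximal)
    (honlyβ : @OnlyAbove A _ F E _ _ _ _ β.toAlgebra yβ 𝔪β x 𝔪)
    (hBβ₁ : ∀ s ∈ chartClosure A F yβ, s ∈ O₁) (hBβ₂ : ∀ s ∈ chartClosure A F yβ, s ∈ O₂)
    (hTβ₁ : Through A F yβ 𝔪β O₁) (hTβ₂ : Through A F yβ 𝔪β O₂)
    -- the local principalisation with roots of unity
    (Hinv u : E) (c₂₀ c₁₁ c₀₂ : A) (h₂₀ : c₂₀ ^ n = 1) (h₁₁ : c₁₁ ^ n = 1) (h₀₂ : c₀₂ ^ n = 1)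
    (hc₂₀ : Hinv - algebraMap A E c₂₀ ∈ V₂₀.nonunits)
    (hc₁₁ : Hinv - algebraMap A E c₁₁ ∈ V₁₁.nonunits)
    (hc₀₂ : Hinv - algebraMap A E c₀₂ ∈ V₀₂.nonunits)
    (hloc : InLoc A E x 𝔪 (u * Hinv ^ n))
    -- the two norms
    (hα : F) (pα ωα₁₀ ωα₀₁ : A) (hpα : IsUnit pα)
    (hNα : algebraMap A F pα * hα ^ n = @Algebra.norm F E _ _ α.toAlgebra u)
    (hωα₁₀ : ωα₁₀ ^ n = 1) (hωα₀₁ : ωα₀₁ ^ n = 1)
    (hhα₁ : hα - algebraMap A F ωα₁₀ ∈ O₁.nonunits)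
    (hhα₂ : hα - algebraMap A F ωα₀₁ ∈ O₂.nonunits)
    (hβ : F) (pβ ωβ₁₀ ωβ₀₁ : A) (hpβ : IsUnit pβ)
    (hNβ : algebraMap A F pβ * hβ ^ n = @Algebra.norm F E _ _ β.toAlgebra u)
    (hωβ₁₀ : ωβ₁₀ ^ n = 1) (hωβ₀₁ : ωβ₀₁ ^ n = 1)
    (hhβ₁ : hβ - algebraMap A F ωβ₁₀ ∈ O₁.nonunits)
    (hhβ₂ : hβ - algebraMap A F ωβ₀₁ ∈ O₂.nonunits) :
    ωα₁₀ * (c₂₀ * c₁₁ ^ (q - 1)) = ωα₀₁ * c₀₂ ^ q ∧
      ωβ₁₀ * c₂₀ ^ q = ωβ₀₁ * (c₁₁ ^ (q - 1) * c₀₂) := by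
  obtain ⟨N1, N2, N3, N4⟩ := normRedConstAt_val3 A α β hαA hβA O₁ O₂ hO₁ hO₂ hA₁ hA₂
    V₂₀ V₁₁ V₀₂ q hq Y₁ Z hu₁ hu₂ hdα hdβ hV
  constructor
  · have key := toricGen_along A α hαA hdα.1 yα x hchα 𝔪α h𝔪α 𝔪 honlyα n hn hnu O₁ O₂
      hBα₁ hBα₂ hTα₁ hTα₂ (Fin 2) (Fin 1) ![V₂₀, V₁₁] ![1, q - 1] ![V₀₂] ![q] N1 N2 Hinv u
      ![c₂₀, c₁₁] ![c₀₂]
      (by intro i; fin_cases i; exacts [⟨h₂₀, hc₂₀⟩, ⟨h₁₁, hc₁₁⟩])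
      (by intro i; fin_cases i; exact ⟨h₀₂, hc₀₂⟩)
      hloc hα pα ωα₁₀ ωα₀₁ hpα hNα hωα₁₀ hωα₀₁ hhα₁ hhα₂
    simpa [Fin.prod_univ_two] using key
  · have key := toricGen_along A β hβA hdβ.1 yβ x hchβ 𝔪β h𝔪β 𝔪 honlyβ n hn hnu O₁ O₂
      hBβ₁ hBβ₂ hTβ₁ hTβ₂ (Fin 1) (Fin 2) ![V₂₀] ![q] ![V₁₁, V₀₂] ![q - 1, 1] N3 N4 Hinv u
      ![c₂₀] ![c₁₁, c₀₂]
      (by intro i; fin_cases i; exact ⟨h₂₀, hc₂₀⟩)
      (by intro i; fin_cases i; exacts [⟨h₁₁, hc₁₁⟩, ⟨h₀₂, hc₀₂⟩])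
      hloc hβ pβ ωβ₁₀ ωβ₀₁ hpβ hNβ hωβ₁₀ hωβ₀₁ hhβ₁ hhβ₂
    simpa [Fin.prod_univ_two] using key

/-- **The two TORIC relations in the form of `Fermat.Agent.H19.SS2.KcThree`**, general upper
chart: `c₂₀ c₁₁^(q-1) = w c₀₂^q` and `c₂₀^q = w' c₁₁^(q-1) c₀₂` with
`w = ωα₀₁ ωα₁₀^(n-1)`, `w' = ωβ₀₁ ωβ₁₀^(n-1)` (independent of the point). -/
theorem toricGen_val3_kc (α β : F →+* E)
    (hαA : ∀ a, α (algebraMap A F a) = algebraMap A E a)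
    (hβA : ∀ a, β (algebraMap A F a) = algebraMap A E a)
    (O₁ O₂ : ValuationSubring F) (hO₁ : IsPrincipalIdealRing O₁) (hO₂ : IsPrincipalIdealRing O₂)
    (hA₁ : ∀ a, algebraMap A F a ∈ O₁) (hA₂ : ∀ a, algebraMap A F a ∈ O₂)
    (V₂₀ V₁₁ V₀₂ : ValuationSubring E) (q : ℕ) (hq : 0 < q) (Y₁ : F) (Z : E)
    (hu₁ : DKUnif O₁ (q : F)) (hu₂ : DKUnif O₂ (q : F))
    (hdα : @FiniteDimensional F E _ _ (@Algebra.toModule F E _ _ α.toAlgebra) ∧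
      @Module.finrank F E _ _ (@Algebra.toModule F E _ _ α.toAlgebra) = q)
    (hdβ : @FiniteDimensional F E _ _ (@Algebra.toModule F E _ _ β.toAlgebra) ∧
      @Module.finrank F E _ _ (@Algebra.toModule F E _ _ β.toAlgebra) = q)
    (hV : Val3Data α β O₁ O₂ V₂₀ V₁₁ V₀₂ q Y₁ Z)
    (x : E) (𝔪 : Ideal (chartClosure A E x))
    (n : ℕ) (hn : 0 < n) (hnu : IsUnit ((n : ℕ) : A))
    (yα : F) (hchα : chartClosure A E (α yα) = chartClosure A E x)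
    (𝔪α : Ideal (chartClosure A F yα)) (h𝔪α : 𝔪α.IsMaximal)
    (honlyα : @OnlyAbove A _ F E _ _ _ _ α.toAlgebra yα 𝔪α x 𝔪)
    (hBα₁ : ∀ s ∈ chartClosure A F yα, s ∈ O₁) (hBα₂ : ∀ s ∈ chartClosure A F yα, s ∈ O₂)
    (hTα₁ : Through A F yα 𝔪α O₁) (hTα₂ : Through A F yα 𝔪α O₂)
    (yβ : F) (hchβ : chartClosure A E (β yβ) = chartClosure A E x)
    (𝔪β : Ideal (chartClosure A F yβ)) (h𝔪β : 𝔪β.IsMaximal)
    (honlyβ : @OnlyAbove A _ F E _ _ _ _ β.toAlgebra yβ 𝔪β x 𝔪)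
    (hBβ₁ : ∀ s ∈ chartClosure A F yβ, s ∈ O₁) (hBβ₂ : ∀ s ∈ chartClosure A F yβ, s ∈ O₂)
    (hTβ₁ : Through A F yβ 𝔪β O₁) (hTβ₂ : Through A F yβ 𝔪β O₂)
    (Hinv u : E) (c₂₀ c₁₁ c₀₂ : A) (h₂₀ : c₂₀ ^ n = 1) (h₁₁ : c₁₁ ^ n = 1) (h₀₂ : c₀₂ ^ n = 1)
    (hc₂₀ : Hinv - algebraMap A E c₂₀ ∈ V₂₀.nonunits)
    (hc₁₁ : Hinv - algebraMap A E c₁₁ ∈ V₁₁.nonunits)
    (hc₀₂ : Hinv - algebraMap A E c₀₂ ∈ V₀₂.nonunits)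
    (hloc : InLoc A E x 𝔪 (u * Hinv ^ n))
    (hα : F) (pα ωα₁₀ ωα₀₁ : A) (hpα : IsUnit pα)
    (hNα : algebraMap A F pα * hα ^ n = @Algebra.norm F E _ _ α.toAlgebra u)
    (hωα₁₀ : ωα₁₀ ^ n = 1) (hωα₀₁ : ωα₀₁ ^ n = 1)
    (hhα₁ : hα - algebraMap A F ωα₁₀ ∈ O₁.nonunits)
    (hhα₂ : hα - algebraMap A F ωα₀₁ ∈ O₂.nonunits)
    (hβ : F) (pβ ωβ₁₀ ωβ₀₁ : A) (hpβ : IsUnit pβ)
    (hNβ : algebraMap A F pβ * hβ ^ n = @Algebra.norm F E _ _ β.toAlgebra u)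
    (hωβ₁₀ : ωβ₁₀ ^ n = 1) (hωβ₀₁ : ωβ₀₁ ^ n = 1)
    (hhβ₁ : hβ - algebraMap A F ωβ₁₀ ∈ O₁.nonunits)
    (hhβ₂ : hβ - algebraMap A F ωβ₀₁ ∈ O₂.nonunits) :
    c₂₀ * c₁₁ ^ (q - 1) = (ωα₀₁ * ωα₁₀ ^ (n - 1)) * c₀₂ ^ q ∧
      c₂₀ ^ q = (ωβ₀₁ * ωβ₁₀ ^ (n - 1)) * c₁₁ ^ (q - 1) * c₀₂ := by
  obtain ⟨r1, r2⟩ := toricGen_val3 A α β hαA hβA O₁ O₂ hO₁ hO₂ hA₁ hA₂ V₂₀ V₁₁ V₀₂ q hq Y₁ Z
    hu₁ hu₂ hdα hdβ hV x 𝔪 n hn hnu yα hchα 𝔪α h𝔪α honlyα hBα₁ hBα₂ hTα₁ hTα₂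
    yβ hchβ 𝔪β h𝔪β honlyβ hBβ₁ hBβ₂ hTβ₁ hTβ₂ Hinv u c₂₀ c₁₁ c₀₂ h₂₀ h₁₁ h₀₂ hc₂₀ hc₁₁ hc₀₂
    hloc hα pα ωα₁₀ ωα₀₁ hpα hNα hωα₁₀ hωα₀₁ hhα₁ hhα₂ hβ pβ ωβ₁₀ ωβ₀₁ hpβ hNβ hωβ₁₀ hωβ₀₁
    hhβ₁ hhβ₂
  refine ⟨eq_mul_of_root_mul_eq hn hωα₁₀ r1, ?_⟩
  have := eq_mul_of_root_mul_eq hn hωβ₁₀ r2
  rw [this]
  ring

end val3

end Fermat.Agent.H68.SS2

end
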